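import Fermat.Agent.ThreePrimesClasses.Circle
import Fermat.Agent.ThreePrimes.Main

/-!
# Three primes in prescribed classes

The formula for all `N ≥ 2`, the removal of the prime powers, and the number of representations.
-/

set_option autoImplicit false

noncomputable section

namespace FA.ThreePrimesClasses

open Finset Complex ArithmeticFunction
open FA.ThreePrimes
open scoped Real

theorem classTriple_eq (m a₁ a₂ a₃ N : ℕ) : classTriple m a₁ a₂ a₃ N =
    ((triple (classLambda m a₁) (classLambda m a₂) (classLambda m a₃) N : ℝ) : ℂ) := by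
  simp only [classTriple, triple, Complex.ofReal_sum]
  refine sum_congr rfl fun i _ => sum_congr rfl fun j _ => sum_congr rfl fun k _ => ?_
  split_ifs <;> simp

/-- `log` on the primes of one class. -/
def classLog (m a n : ℕ) : ℝ := if n.Prime ∧ n % m = a % m then Real.log n else 0

theorem classLog_nonneg (m a n : ℕ) : 0 ≤ classLog m a n := by
  rw [classLog]
  split_ifs
  exacts [Real.log_natCast_nonneg n, le_rfl]

theorem classLog_le (m a n : ℕ) : classLog m a n ≤ classLambda m a n := by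
  rw [classLog]
  split_ifs with h
  · rw [classLambda, if_pos h.2, vonMangoldt_apply_prime h.1]
  · exact classLambda_nonneg m a n

theorem classLambda_sub_le (m a n : ℕ) : classLambda m a n - classLog m a n ≤ powerPart n := by
  rw [classLambda]
  split_ifs with h
  · by_cases hp : n.Prime
    · rw [classLog, if_pos ⟨hp, h⟩, powerPart, if_pos hp, vonMangoldt_apply_prime hp, sub_self]
    · rw [classLog, if_neg (fun hh => hp hh.1), powerPart, if_neg hp, sub_zero]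
  · rw [classLog, if_neg (fun hh => h hh.2), sub_zero]
    exact powerPart_nonneg n

theorem triple_classLog_le (m a₁ a₂ a₃ N : ℕ) :
    triple (classLog m a₁) (classLog m a₂) (classLog m a₃) N ≤
      triple (classLambda m a₁) (classLambda m a₂) (classLambda m a₃) N := by
  refine sum_le_sum fun i _ => sum_le_sum fun j _ => sum_le_sum fun k _ => ?_
  split_ifs
  · exact mul_le_mul (mul_le_mul (classLog_le _ _ _) (classLog_le _ _ _) (classLog_nonneg _ _ _)
      (classLambda_nonneg _ _ _)) (classLog_le _ _ _) (classLog_nonneg _ _ _)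
      (mul_nonneg (classLambda_nonneg _ _ _) (classLambda_nonneg _ _ _))
  · exact le_rfl

theorem triple_classLambda_le (m a₁ a₂ a₃ N : ℕ) :
    triple (classLambda m a₁) (classLambda m a₂) (classLambda m a₃) N ≤
      triple (classLog m a₁) (classLog m a₂) (classLog m a₃) N +
        (triple powerPart (Λ ·) (Λ ·) N + triple (Λ ·) powerPart (Λ ·) N +
          triple (Λ ·) (Λ ·) powerPart N) := by
  simp only [triple, ← sum_add_distrib]
  refine sum_le_sum fun i _ => sum_le_sum fun j _ => sum_le_sum fun k _ => ?_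
  split_ifs
  · have e1 : (classLambda m a₁ i - classLog m a₁ i) * classLambda m a₂ j * classLambda m a₃ k ≤
        powerPart i * Λ j * Λ k :=
      mul_le_mul (mul_le_mul (classLambda_sub_le _ _ _) (classLambda_le _ _ _)
        (classLambda_nonneg _ _ _) (powerPart_nonneg i)) (classLambda_le _ _ _)
        (classLambda_nonneg _ _ _) (mul_nonneg (powerPart_nonneg i) vonMangoldt_nonneg)
    have e2 : classLog m a₁ i * (classLambda m a₂ j - classLog m a₂ j) * classLambda m a₃ k ≤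
        Λ i * powerPart j * Λ k :=
      mul_le_mul (mul_le_mul ((classLog_le _ _ _).trans (classLambda_le _ _ _))
        (classLambda_sub_le _ _ _) (sub_nonneg.2 (classLog_le _ _ _)) vonMangoldt_nonneg)
        (classLambda_le _ _ _) (classLambda_nonneg _ _ _)
        (mul_nonneg vonMangoldt_nonneg (powerPart_nonneg j))
    have e3 : classLog m a₁ i * classLog m a₂ j * (classLambda m a₃ k - classLog m a₃ k) ≤
        Λ i * Λ j * powerPart k :=
      mul_le_mul (mul_le_mul ((classLog_le _ _ _).trans (classLambda_le _ _ _))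
        ((classLog_le _ _ _).trans (classLambda_le _ _ _)) (classLog_nonneg _ _ _)
        vonMangoldt_nonneg) (classLambda_sub_le _ _ _) (sub_nonneg.2 (classLog_le _ _ _))
        (mul_nonneg vonMangoldt_nonneg vonMangoldt_nonneg)
    linarith
  · norm_num

theorem exists_triple_powerPart_le (e : ℕ) : ∃ C : ℝ, 0 < C ∧ ∀ N : ℕ, 2 ≤ N →
    triple powerPart (Λ ·) (Λ ·) N + triple (Λ ·) powerPart (Λ ·) N +
      triple (Λ ·) (Λ ·) powerPart N ≤ C * ((N : ℝ) ^ 2 / Real.log N ^ e) := by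
  obtain ⟨K, hK, hpow⟩ := exists_log_pow_le (e + 2)
  refine ⟨36 * K, by positivity, fun N hN => ?_⟩
  have hN1 : (1 : ℝ) ≤ N := by exact_mod_cast (show 1 ≤ N by omega)
  obtain ⟨l, hl⟩ : ∃ l, l = Real.log N := ⟨_, rfl⟩
  have hl0 : 0 < l := hl ▸ Real.log_pos (by exact_mod_cast hN)
  rw [← hl]
  have hΛ : ∀ n : ℕ, 0 ≤ Λ n := fun n => vonMangoldt_nonneg
  have hmax : ∀ n ∈ Icc 1 N, Λ n ≤ l := fun n hn => by
    rw [mem_Icc] at hn
    rw [hl]
    exact vonMangoldt_le_log.trans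
      (Real.log_le_log (Nat.cast_pos.2 hn.1) (Nat.cast_le.2 hn.2))
  have hone : ∀ T : ℝ, T ≤ (∑ i ∈ Icc 1 N, powerPart i) * (∑ j ∈ Icc 1 N, Λ j) * l →
      T ≤ 12 * K * ((N : ℝ) ^ 2 / l ^ e) := by
    intro T hT
    refine hT.trans ?_
    calc (∑ i ∈ Icc 1 N, powerPart i) * (∑ j ∈ Icc 1 N, Λ j) * l
        ≤ (2 * √(N : ℝ) * l) * (6 * N) * l :=
          mul_le_mul_of_nonneg_right (mul_le_mul (hl ▸ sum_powerPart_le (by omega))
            (sum_vonMangoldt_le N) (sum_nonneg fun j _ => hΛ j) (by positivity)) hl0.le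
      _ = 12 * N * √(N : ℝ) * (l ^ (e + 2) / l ^ e) := by
          rw [pow_add]
          field_simp
          ring
      _ ≤ 12 * N * √(N : ℝ) * (K * √(N : ℝ) / l ^ e) := mul_le_mul_of_nonneg_left
          (div_le_div_of_nonneg_right (hl ▸ hpow N hN1) (by positivity)) (by positivity)
      _ = 12 * K * ((N : ℝ) * (√(N : ℝ) * √(N : ℝ)) / l ^ e) := by ring
      _ = _ := by rw [Real.mul_self_sqrt (Nat.cast_nonneg N), sq]
  have t1 := hone _ (triple_le powerPart_nonneg hΛ (N := N) hl0.le hmax)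
  have t2 := hone _ (((triple_le hΛ powerPart_nonneg (N := N) hl0.le hmax)).trans
    (le_of_eq (by ring)))
  have t3 : triple (Λ ·) (Λ ·) powerPart N ≤ 12 * K * ((N : ℝ) ^ 2 / l ^ e) := by
    rw [triple_swap]
    exact t2
  linarith

/-- **The asymptotic formula.** -/
theorem exists_lambda_asymptotic {m a₁ a₂ a₃ : ℕ} (hm : 0 < m) (h₁ : a₁.Coprime m)
    (h₂ : a₂.Coprime m) (h₃ : a₃.Coprime m) (e : ℕ) : ∃ C : ℝ, 0 < C ∧ ∀ N : ℕ, 2 ≤ N →
      N ≡ a₁ + a₂ + a₃ [MOD m] →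
      |triple (classLambda m a₁) (classLambda m a₂) (classLambda m a₃) N -
        classMain m N * ((N : ℝ) ^ 2 / 2)| ≤ C * ((N : ℝ) ^ 2 / Real.log N ^ e) := by
  obtain ⟨C, N₀, hC, h⟩ := exists_class_asymptotic_large hm h₁ h₂ h₃ e
  obtain ⟨Cs, hCs, hser⟩ := exists_classTerm_sum hm h₁ h₂ h₃
  obtain ⟨L, hL⟩ : ∃ L : ℝ, L = (Real.log N₀ + 1) ^ e := ⟨_, rfl⟩
  have hL0 : 0 < L := hL ▸ pow_pos (by linarith [Real.log_natCast_nonneg N₀]) e
  refine ⟨C + (216 * (N₀ + 1) + Cs) * L, by positivity, fun N hN hmod => ?_⟩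
  obtain ⟨E, hE⟩ : ∃ E : ℝ, E = (N : ℝ) ^ 2 / Real.log N ^ e := ⟨_, rfl⟩
  rw [← hE]
  have hl : 0 < Real.log N := Real.log_pos (by exact_mod_cast hN)
  have hE0 : 0 ≤ E := by rw [hE]; positivity
  rcases le_or_gt N₀ N with hle | hlt
  · have h1 := h N hle hmod
    rw [classTriple_eq, ← Complex.ofReal_sub, Complex.norm_real, Real.norm_eq_abs, ← hE] at h1
    have : 0 ≤ (216 * ((N₀ : ℝ) + 1) + Cs) * L * E := by positivity
    linarith
  · have hN0 : (N : ℝ) ≤ N₀ := Nat.cast_le.2 hlt.le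
    have hs : ∀ a, ∑ n ∈ Icc 1 N, classLambda m a n ≤ 6 * N := fun a =>
      (sum_le_sum fun n _ => classLambda_le m a n).trans (sum_vonMangoldt_le N)
    have h1 : triple (classLambda m a₁) (classLambda m a₂) (classLambda m a₃) N ≤
        216 * ((N₀ : ℝ) + 1) * (N : ℝ) ^ 2 := by
      refine (triple_le (classLambda_nonneg m a₁) (classLambda_nonneg m a₂) (B := 6 * N)
        (by positivity) fun n hn =>
        (single_le_sum (fun i _ => classLambda_nonneg m a₃ i) hn).trans (hs a₃)).trans ?_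
      refine (mul_le_mul_of_nonneg_right (mul_le_mul (hs a₁) (hs a₂)
        (sum_nonneg fun i _ => classLambda_nonneg m a₂ i)
        (by positivity)) (by positivity)).trans ?_
      have := mul_le_mul_of_nonneg_left (show (N : ℝ) ≤ N₀ + 1 by linarith)
        (show (0 : ℝ) ≤ 216 * (N : ℝ) ^ 2 by positivity)
      linarith
    have h2 : |classMain m N * ((N : ℝ) ^ 2 / 2)| ≤ Cs * (N : ℝ) ^ 2 := by
      rw [abs_mul, abs_of_nonneg (show (0 : ℝ) ≤ (N : ℝ) ^ 2 / 2 by positivity)]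
      exact mul_le_mul (hser N 0 hmod).2 (by linarith [sq_nonneg (N : ℝ)]) (by positivity) hCs.le
    have h3 : (N : ℝ) ^ 2 ≤ L * E := by
      rw [hE, mul_div_assoc', le_div_iff₀ (by positivity), mul_comm L]
      refine mul_le_mul_of_nonneg_left (hL ▸ pow_le_pow_left₀ hl.le ?_ e) (sq_nonneg _)
      linarith [Real.log_le_log (show (0 : ℝ) < N by positivity) hN0]
    refine (abs_sub _ _).trans ((add_le_add ((abs_of_nonneg (triple_nonneg (classLambda_nonneg m a₁)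
      (classLambda_nonneg m a₂) (classLambda_nonneg m a₃) N)).le.trans h1) h2).trans ?_)
    have h4 := mul_le_mul_of_nonneg_left h3 (show 0 ≤ 216 * ((N₀ : ℝ) + 1) + Cs by positivity)
    have : 0 ≤ C * E := by positivity
    linarith

/-- **The formula with `log p` over the primes of the classes.** -/
theorem exists_log_asymptotic {m a₁ a₂ a₃ : ℕ} (hm : 0 < m) (h₁ : a₁.Coprime m)
    (h₂ : a₂.Coprime m) (h₃ : a₃.Coprime m) (e : ℕ) : ∃ C : ℝ, 0 < C ∧ ∀ N : ℕ, 2 ≤ N →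
      N ≡ a₁ + a₂ + a₃ [MOD m] →
      |triple (classLog m a₁) (classLog m a₂) (classLog m a₃) N -
        classMain m N * ((N : ℝ) ^ 2 / 2)| ≤ C * ((N : ℝ) ^ 2 / Real.log N ^ e) := by
  obtain ⟨C, hC, h⟩ := exists_lambda_asymptotic hm h₁ h₂ h₃ e
  obtain ⟨C', hC', h'⟩ := exists_triple_powerPart_le e
  refine ⟨C + C', by positivity, fun N hN hmod => ?_⟩
  obtain ⟨u, v⟩ := abs_le.1 (h N hN hmod)
  have := h' N hN
  have := triple_classLog_le m a₁ a₂ a₃ N
  have := triple_classLambda_le m a₁ a₂ a₃ N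
  have : 0 ≤ C' * ((N : ℝ) ^ 2 / Real.log N ^ e) := by
    have := Real.log_natCast_nonneg N
    positivity
  exact abs_le.2 ⟨by linarith, by linarith⟩

/-- The representations of `N`. -/
def classReps (m a₁ a₂ a₃ N : ℕ) : Finset (ℕ × ℕ × ℕ) :=
  (Icc 1 N ×ˢ (Icc 1 N ×ˢ Icc 1 N)).filter fun t => t.1 + t.2.1 + t.2.2 = N ∧
    (t.1.Prime ∧ t.1 ≡ a₁ [MOD m]) ∧ (t.2.1.Prime ∧ t.2.1 ≡ a₂ [MOD m]) ∧
    (t.2.2.Prime ∧ t.2.2 ≡ a₃ [MOD m])

theorem of_classLog_ne_zero {m a n : ℕ} (h : classLog m a n ≠ 0) :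
    n.Prime ∧ n ≡ a [MOD m] := by
  by_contra hc
  exact h (if_neg hc)

theorem triple_classLog_eq (m a₁ a₂ a₃ N : ℕ) :
    triple (classLog m a₁) (classLog m a₂) (classLog m a₃) N =
      ∑ t ∈ classReps m a₁ a₂ a₃ N, Real.log t.1 * Real.log t.2.1 * Real.log t.2.2 := by
  rw [classReps, sum_filter]
  simp only [sum_product, triple]
  refine sum_congr rfl fun i _ => sum_congr rfl fun j _ => sum_congr rfl fun k _ => ?_
  by_cases hc : i + j + k = N ∧ (i.Prime ∧ i ≡ a₁ [MOD m]) ∧ (j.Prime ∧ j ≡ a₂ [MOD m]) ∧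
      (k.Prime ∧ k ≡ a₃ [MOD m])
  · rw [if_pos hc]
    obtain ⟨hs, hi, hj, hk⟩ := hc
    rw [if_pos hs, classLog, if_pos (show i.Prime ∧ i % m = a₁ % m from hi), classLog,
      if_pos (show j.Prime ∧ j % m = a₂ % m from hj), classLog,
      if_pos (show k.Prime ∧ k % m = a₃ % m from hk)]
  · rw [if_neg hc]
    split_ifs with hs
    · by_contra h0
      rw [← ne_eq, mul_ne_zero_iff, mul_ne_zero_iff] at h0
      exact hc ⟨hs, of_classLog_ne_zero h0.1.1, of_classLog_ne_zero h0.1.2,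
        of_classLog_ne_zero h0.2⟩
    · rfl

theorem sum_log_classReps_le (m a₁ a₂ a₃ N : ℕ) :
    triple (classLog m a₁) (classLog m a₂) (classLog m a₃) N ≤
      (classReps m a₁ a₂ a₃ N).card * Real.log N ^ 3 := by
  rw [triple_classLog_eq]
  refine (sum_le_card_nsmul _ _ (Real.log N ^ 3) fun t ht => ?_).trans
    (le_of_eq (nsmul_eq_mul _ _))
  simp only [classReps, mem_filter, mem_product, mem_Icc] at ht
  obtain ⟨⟨⟨h1, h1'⟩, ⟨h2, h2'⟩, h3, h3'⟩, -⟩ := ht
  rw [pow_three']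
  exact mul_le_mul (mul_le_mul (Real.log_le_log (Nat.cast_pos.2 h1) (Nat.cast_le.2 h1'))
    (Real.log_le_log (Nat.cast_pos.2 h2) (Nat.cast_le.2 h2')) (Real.log_natCast_nonneg _)
    (Real.log_natCast_nonneg _))
    (Real.log_le_log (Nat.cast_pos.2 h3) (Nat.cast_le.2 h3')) (Real.log_natCast_nonneg _)
    (mul_nonneg (Real.log_natCast_nonneg _) (Real.log_natCast_nonneg _))

/-- **The number of representations is `≫ N² / (log N) ^ 3`.** -/
theorem exists_count_lower {m a₁ a₂ a₃ : ℕ} (hm : 0 < m) (h₁ : a₁.Coprime m)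
    (h₂ : a₂.Coprime m) (h₃ : a₃.Coprime m) :
    ∃ (c : ℝ) (N₀ : ℕ), 0 < c ∧ ∀ N : ℕ, N₀ ≤ N → N ≡ a₁ + a₂ + a₃ [MOD m] → Odd N →
      c * ((N : ℝ) ^ 2 / Real.log N ^ 3) ≤ ((classReps m a₁ a₂ a₃ N).card : ℝ) := by
  obtain ⟨C, hC, h⟩ := exists_log_asymptotic hm h₁ h₂ h₃ 1
  obtain ⟨c, hc⟩ : ∃ c : ℝ, c = (m : ℝ) / (m.totient : ℝ) ^ 3 / 8 := ⟨_, rfl⟩
  have hc0 : 0 < c := by
    have : 0 < (m.totient : ℝ) := Nat.cast_pos.2 (Nat.totient_pos.2 hm)
    have : 0 < (m : ℝ) := Nat.cast_pos.2 hm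
    rw [hc]
    positivity
  refine ⟨c, max 2 ⌈Real.exp (C / c + 1)⌉₊, hc0, fun N hN hmod hodd => ?_⟩
  have hN2 : 2 ≤ N := le_trans (le_max_left _ _) hN
  have hN0 : (0 : ℝ) < N := Nat.cast_pos.2 (by omega)
  obtain ⟨l, hl⟩ : ∃ l, l = Real.log N := ⟨_, rfl⟩
  have hlC : C / c + 1 ≤ l := by
    rw [hl, Real.le_log_iff_exp_le hN0]
    exact (Nat.le_ceil _).trans (Nat.cast_le.2 (le_trans (le_max_right _ _) hN))
  have hl0 : 0 < l := by linarith [div_nonneg hC.le hc0.le]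
  have hCl : C * ((N : ℝ) ^ 2 / l ^ 1) ≤ c * (N : ℝ) ^ 2 := by
    rw [pow_one, mul_div_assoc', div_le_iff₀ hl0]
    have := mul_le_mul_of_nonneg_left hlC hc0.le
    rw [mul_add, mul_div_cancel₀ _ hc0.ne'] at this
    have := mul_le_mul_of_nonneg_left (show C ≤ c * l by linarith) (sq_nonneg (N : ℝ))
    linarith
  have hmain : 4 * c ≤ classMain m N := by
    rw [hc, classMain]
    refine le_trans (le_of_eq (by ring)) (mul_le_mul_of_nonneg_left
      (half_le_classSeries (Or.inr hodd)) (by positivity))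
  have hlow := (abs_le.1 (h N hN2 hmod)).1
  rw [← hl] at hlow
  rw [← hl, mul_div_assoc', div_le_iff₀ (by positivity)]
  refine le_trans ?_ (hl ▸ sum_log_classReps_le m a₁ a₂ a₃ N)
  have := mul_le_mul_of_nonneg_right hmain (show 0 ≤ (N : ℝ) ^ 2 / 2 by positivity)
  linarith [sq_nonneg (N : ℝ), mul_nonneg hc0.le (sq_nonneg (N : ℝ))]

/-- Few representations use a prime up to `X`. -/
theorem card_classReps_small_le (m a₁ a₂ a₃ N : ℕ) {X : ℝ} (hX : 0 ≤ X) :
    (((classReps m a₁ a₂ a₃ N).filter fun t =>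
      (t.1 : ℝ) ≤ X ∨ (t.2.1 : ℝ) ≤ X ∨ (t.2.2 : ℝ) ≤ X).card : ℝ) ≤ 3 * (X * N) := by
  obtain ⟨S, hS⟩ : ∃ S, S = classReps m a₁ a₂ a₃ N := ⟨_, rfl⟩
  rw [← hS]
  have hmem : ∀ t ∈ S, t.1 + t.2.1 + t.2.2 = N ∧ t.1 ∈ Icc 1 N ∧ t.2.1 ∈ Icc 1 N ∧
      t.2.2 ∈ Icc 1 N := by
    intro t ht
    simp only [hS, classReps, mem_filter, mem_product] at ht
    exact ⟨ht.2.1, ht.1.1, ht.1.2.1, ht.1.2.2⟩
  have hbox : ∀ f : ℕ × ℕ × ℕ → ℕ × ℕ, (∀ t ∈ S, ∀ t' ∈ S, f t = f t' → t = t') →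
      (∀ t ∈ S, (f t).1 ∈ Icc 1 N ∧ (f t).2 ∈ Icc 1 N) →
      ((S.filter fun t => ((f t).1 : ℝ) ≤ X).card : ℝ) ≤ X * N := by
    intro f hinj hf
    have h1 : (S.filter fun t => ((f t).1 : ℝ) ≤ X).card ≤ (Icc 1 ⌊X⌋₊ ×ˢ Icc 1 N).card := by
      refine card_le_card_of_injOn f (fun t ht => ?_) fun t ht t' ht' he => ?_
      · rw [mem_coe, mem_filter] at ht
        rw [mem_coe, mem_product, mem_Icc]
        exact ⟨⟨(mem_Icc.1 (hf t ht.1).1).1, Nat.le_floor ht.2⟩, (hf t ht.1).2⟩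
      · rw [mem_coe, mem_filter] at ht ht'
        exact hinj t ht.1 t' ht'.1 he
    refine (Nat.cast_le.2 h1).trans ?_
    rw [card_product, Nat.card_Icc, Nat.card_Icc, Nat.add_sub_cancel, Nat.add_sub_cancel,
      Nat.cast_mul]
    exact mul_le_mul_of_nonneg_right (Nat.floor_le hX) (Nat.cast_nonneg N)
  have b1 := hbox (fun t => (t.1, t.2.1)) (fun t ht t' ht' he => by
    have := (hmem t ht).1
    have := (hmem t' ht').1
    simp only [Prod.mk.injEq] at he
    ext <;> omega) fun t ht => ⟨(hmem t ht).2.1, (hmem t ht).2.2.1⟩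
  have b2 := hbox (fun t => (t.2.1, t.2.2)) (fun t ht t' ht' he => by
    have := (hmem t ht).1
    have := (hmem t' ht').1
    simp only [Prod.mk.injEq] at he
    ext <;> omega) fun t ht => ⟨(hmem t ht).2.2.1, (hmem t ht).2.2.2⟩
  have b3 := hbox (fun t => (t.2.2, t.1)) (fun t ht t' ht' he => by
    have := (hmem t ht).1
    have := (hmem t' ht').1
    simp only [Prod.mk.injEq] at he
    ext <;> omega) fun t ht => ⟨(hmem t ht).2.2.2, (hmem t ht).2.1⟩
  have h2 : ((S.filter fun t => (t.1 : ℝ) ≤ X ∨ (t.2.1 : ℝ) ≤ X ∨ (t.2.2 : ℝ) ≤ X).card : ℝ) ≤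
      (S.filter fun t => (t.1 : ℝ) ≤ X).card + ((S.filter fun t => (t.2.1 : ℝ) ≤ X).card +
        (S.filter fun t => (t.2.2 : ℝ) ≤ X).card) := by
    rw [filter_or, filter_or]
    exact_mod_cast (card_union_le _ _).trans (Nat.add_le_add_left (card_union_le _ _) _)
  linarith

/-- **The number of representations.** -/
theorem exists_count_asymptotic {m a₁ a₂ a₃ : ℕ} (hm : 0 < m) (h₁ : a₁.Coprime m)
    (h₂ : a₂.Coprime m) (h₃ : a₃.Coprime m) {ε : ℝ} (hε : 0 < ε) :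
    ∃ N₀ : ℕ, ∀ N : ℕ, N₀ ≤ N → N ≡ a₁ + a₂ + a₃ [MOD m] →
      |((classReps m a₁ a₂ a₃ N).card : ℝ) * Real.log N ^ 3 / (N : ℝ) ^ 2 - classMain m N / 2| ≤
        ε := by
  obtain ⟨C, hC, h⟩ := exists_log_asymptotic hm h₁ h₂ h₃ 1
  obtain ⟨Cs, hCs, hser⟩ := exists_classTerm_sum hm h₁ h₂ h₃
  obtain ⟨η, hη⟩ : ∃ η : ℝ, η = min (1 / 6) (ε / (12 * (C + Cs + 3))) := ⟨_, rfl⟩
  have hη0 : 0 < η := hη ▸ lt_min (by norm_num) (by positivity)
  have hη6 : η ≤ 1 / 6 := hη ▸ min_le_left _ _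
  have hηε : η * (12 * (C + Cs + 3)) ≤ ε := by
    rw [← le_div_iff₀ (by positivity), hη]
    exact min_le_right _ _
  refine ⟨max 2 ⌈Real.exp ((2 * C + 6) / ε + 64 / η ^ 2 + 1)⌉₊, fun N hN hmod => ?_⟩
  have hN2 : 2 ≤ N := le_trans (le_max_left _ _) hN
  have hN0 : (0 : ℝ) < N := Nat.cast_pos.2 (by omega)
  obtain ⟨l, hl⟩ : ∃ l, l = Real.log N := ⟨_, rfl⟩
  have hlb : (2 * C + 6) / ε + 64 / η ^ 2 + 1 ≤ l := by
    rw [hl, Real.le_log_iff_exp_le hN0]
    exact (Nat.le_ceil _).trans (Nat.cast_le.2 (le_trans (le_max_right _ _) hN))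
  have hu : 0 ≤ (2 * C + 6) / ε := by positivity
  have hv : 0 ≤ 64 / η ^ 2 := by positivity
  have hl1 : 1 ≤ l := by linarith
  have hl0 : 0 < l := by linarith
  have hlε : (2 * C + 6) / l ≤ ε := by
    have h9 : (2 * C + 6) / ε ≤ l := by linarith
    rw [div_le_iff₀ hl0]
    linarith [(div_le_iff₀ hε).1 h9]
  obtain ⟨S, hS⟩ : ∃ S, S = classReps m a₁ a₂ a₃ N := ⟨_, rfl⟩
  obtain ⟨T, hT⟩ : ∃ T, T = triple (classLog m a₁) (classLog m a₂) (classLog m a₃) N := ⟨_, rfl⟩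
  have hup : T ≤ S.card * l ^ 3 := by
    rw [hT, hS, hl]
    exact sum_log_classReps_le m a₁ a₂ a₃ N
  obtain ⟨X, hX⟩ : ∃ X : ℝ, X = (N : ℝ) / l ^ 4 := ⟨_, rfl⟩
  have hX0 : 0 < X := hX ▸ div_pos hN0 (by positivity)
  have hlogX : (1 - η) * l ≤ Real.log X := by
    rw [hX, Real.log_div hN0.ne' (by positivity), Real.log_pow, ← hl]
    have h1 : Real.log l ≤ 2 * √l := by
      have := Real.log_le_sub_one_of_pos (Real.sqrt_pos.2 hl0)
      rw [Real.log_sqrt hl0.le] at this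
      linarith
    have h2 : 8 ≤ η * √l := by
      have h3 : (8 / η) ^ 2 ≤ l := by
        rw [div_pow]
        norm_num
        linarith
      have h4 := Real.le_sqrt_of_sq_le h3
      rw [div_le_iff₀ hη0] at h4
      linarith
    have := mul_le_mul_of_nonneg_right h2 (Real.sqrt_nonneg l)
    rw [mul_assoc, Real.mul_self_sqrt hl0.le] at this
    push_cast
    linarith
  have hlX : 0 ≤ (1 - η) * l := mul_nonneg (by linarith) hl0.le
  have hlarge : ((1 - η) * l) ^ 3 * ((S.card : ℝ) - 3 * (X * N)) ≤ T := by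
    refine le_trans (mul_le_mul_of_nonneg_left (a := ((1 - η) * l) ^ 3)
      (show (S.card : ℝ) - 3 * (X * N) ≤ (S.filter fun t =>
        ¬ ((t.1 : ℝ) ≤ X ∨ (t.2.1 : ℝ) ≤ X ∨ (t.2.2 : ℝ) ≤ X)).card by
        rw [sub_le_iff_le_add]
        refine le_trans (le_of_eq ?_)
          (add_le_add_right (card_classReps_small_le m a₁ a₂ a₃ N hX0.le) _)
        rw [← hS, ← Nat.cast_add, add_comm, card_filter_add_card_filter_not]) (pow_nonneg hlX 3)) ?_
    rw [mul_comm, ← nsmul_eq_mul, hT, triple_classLog_eq, ← hS]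
    refine (card_nsmul_le_sum _ _ _ fun t ht => ?_).trans (sum_le_sum_of_subset_of_nonneg
      (filter_subset _ _) fun t _ _ => mul_nonneg (mul_nonneg (Real.log_natCast_nonneg _)
        (Real.log_natCast_nonneg _)) (Real.log_natCast_nonneg _))
    rw [mem_filter, not_or, not_or, not_le, not_le, not_le] at ht
    have hg : ∀ x : ℕ, X < (x : ℝ) → (1 - η) * l ≤ Real.log x := fun x hx =>
      hlogX.trans (Real.log_le_log hX0 hx.le)
    rw [pow_three']
    exact mul_le_mul (mul_le_mul (hg _ ht.2.1) (hg _ ht.2.2.1) hlX (Real.log_natCast_nonneg _))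
      (hg _ ht.2.2.2) hlX (mul_nonneg (Real.log_natCast_nonneg _) (Real.log_natCast_nonneg _))
  obtain ⟨y, hy⟩ : ∃ y : ℝ, y = (S.card : ℝ) * l ^ 3 / (N : ℝ) ^ 2 := ⟨_, rfl⟩
  rw [← hS, ← hl, ← hy]
  have hy0 : 0 ≤ y := hy ▸ by positivity
  obtain ⟨w, hw⟩ : ∃ w : ℝ, w = T / (N : ℝ) ^ 2 := ⟨_, rfl⟩
  have hwy : w ≤ y := by
    rw [hw, hy]
    exact div_le_div_of_nonneg_right hup (sq_nonneg _)
  have hwmain : |w - classMain m N / 2| ≤ C / l := by
    have h1 := h N hN2 hmod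
    rw [← hT, ← hl, pow_one] at h1
    have h2 : w - classMain m N / 2 = (T - classMain m N * ((N : ℝ) ^ 2 / 2)) / (N : ℝ) ^ 2 := by
      rw [hw]
      field_simp
    rw [h2, abs_div, abs_of_nonneg (sq_nonneg (N : ℝ)), div_le_iff₀ (by positivity)]
    exact h1.trans (le_of_eq (by ring))
  have hw2 : (1 - η) ^ 3 * (y - 3 / l) ≤ w := by
    rw [hw, le_div_iff₀ (by positivity)]
    refine le_trans (le_of_eq ?_) hlarge
    rw [hy, hX]
    field_simp
  have hwB : |w| ≤ C + Cs := by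
    have h1 : C / l ≤ C := div_le_self hC.le hl1
    have h2 := (hser N 0 hmod).2
    have h3 := abs_le.1 hwmain
    have h4 := abs_le.1 h2
    exact abs_le.2 ⟨by linarith, by linarith⟩
  have hcube : 1 - 3 * η ≤ (1 - η) ^ 3 := by
    nlinarith [sq_nonneg η, mul_nonneg hη0.le (sq_nonneg η)]
  have h3l : 0 ≤ 3 / l ∧ 3 / l ≤ 3 := ⟨by positivity, div_le_self (by norm_num) hl1⟩
  have hyB : y ≤ 2 * (C + Cs) + 3 := by
    rcases le_or_gt y (3 / l) with hle | hlt
    · linarith [abs_le.1 hwB]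
    · have := (mul_le_mul_of_nonneg_right hcube (sub_pos.2 hlt).le).trans hw2
      have := mul_le_mul_of_nonneg_right (show (1 : ℝ) / 2 ≤ 1 - 3 * η by linarith)
        (sub_pos.2 hlt).le
      linarith [abs_le.1 hwB]
  have hyw : y - w ≤ 3 / l + ε / 2 := by
    rcases le_or_gt y (3 / l) with hle | hlt
    · have : 0 ≤ T := hT ▸ triple_nonneg (classLog_nonneg m a₁) (classLog_nonneg m a₂)
        (classLog_nonneg m a₃) N
      have : 0 ≤ w := hw ▸ div_nonneg this (sq_nonneg _)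
      linarith
    · have := (mul_le_mul_of_nonneg_right hcube (sub_pos.2 hlt).le).trans hw2
      have := mul_le_mul_of_nonneg_left hyB hη0.le
      have := mul_nonneg hη0.le h3l.1
      linarith
  have h5 : (2 * C + 6) / l = 2 * (C / l) + 2 * (3 / l) := by ring
  have h6 := abs_le.1 hwmain
  have : 0 ≤ C / l := by positivity
  exact abs_le.2 ⟨by linarith, by linarith⟩

/-- **Three primes in prescribed classes.** -/
theorem exists_three_primes_classes {m a₁ a₂ a₃ : ℕ} (hm : 0 < m) (h₁ : a₁.Coprime m)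
    (h₂ : a₂.Coprime m) (h₃ : a₃.Coprime m) :
    ∃ N₀ : ℕ, ∀ N : ℕ, N₀ ≤ N → N ≡ a₁ + a₂ + a₃ [MOD m] → Odd N →
      ∃ p q r : ℕ, (p.Prime ∧ p ≡ a₁ [MOD m]) ∧ (q.Prime ∧ q ≡ a₂ [MOD m]) ∧
        (r.Prime ∧ r ≡ a₃ [MOD m]) ∧ p + q + r = N := by
  obtain ⟨c, N₀, hc, h⟩ := exists_count_lower hm h₁ h₂ h₃
  refine ⟨max 2 N₀, fun N hN hmod hodd => ?_⟩
  have hpos : 0 < c * ((N : ℝ) ^ 2 / Real.log N ^ 3) := by
    have : 2 ≤ N := le_trans (le_max_left _ _) hN
    have : 0 < Real.log N := Real.log_pos (by exact_mod_cast this)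
    have : (0 : ℝ) < N := Nat.cast_pos.2 (by omega)
    positivity
  have hne := hpos.trans_le (h N (le_trans (le_max_right _ _) hN) hmod hodd)
  rw [Nat.cast_pos, card_pos] at hne
  obtain ⟨⟨p, q, r⟩, ht⟩ := hne
  rw [classReps, mem_filter] at ht
  exact ⟨p, q, r, ht.2.2.1, ht.2.2.2.1, ht.2.2.2.2, ht.2.1⟩

/-- For an even modulus the congruence makes `N` odd. -/
theorem odd_of_modEq {m a₁ a₂ a₃ N : ℕ} (hm : 2 ∣ m) (h₁ : a₁.Coprime m) (h₂ : a₂.Coprime m)
    (h₃ : a₃.Coprime m) (h : N ≡ a₁ + a₂ + a₃ [MOD m]) : Odd N := by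
  have hodd : ∀ a : ℕ, a.Coprime m → a % 2 = 1 := fun a ha =>
    Nat.odd_iff.1 (Nat.coprime_two_right.1 (ha.coprime_dvd_right hm))
  have h2 : N % 2 = (a₁ + a₂ + a₃) % 2 := h.of_dvd hm
  rw [Nat.odd_iff, h2, Nat.add_mod, Nat.add_mod a₁, hodd _ h₁, hodd _ h₂, hodd _ h₃]

end FA.ThreePrimesClasses
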