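import Fermat.Agent.ThreePrimesClasses.Factor

/-!
# The sums over the primes of one class on the arcs

On a major arc `∑_{n ≤ N, n ≡ a (mod m)} Λ n e (α n)` is `classFactor` times `∑ e (β n)`; off
the arcs with denominators up to `m R` it is small, being the mean of the sums at `α + h / m`.
-/

set_option autoImplicit false

noncomputable section

namespace FA.ThreePrimesClasses

open Finset Complex ArithmeticFunction
open FA.ThreePrimes
open scoped Real

/-- `Λ` on one class. -/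
def classLambda (m a n : ℕ) : ℝ := if n % m = a % m then Λ n else 0

theorem classLambda_nonneg (m a n : ℕ) : 0 ≤ classLambda m a n := by
  rw [classLambda]
  split_ifs
  exacts [vonMangoldt_nonneg, le_rfl]

theorem classLambda_le (m a n : ℕ) : classLambda m a n ≤ Λ n := by
  rw [classLambda]
  split_ifs
  exacts [le_rfl, vonMangoldt_nonneg]

/-- `∑_{n ≤ N, n ≡ a (mod m)} Λ n e (n x)`. -/
def classTwist (m a N : ℕ) (x : ℝ) : ℂ := trigSum (fun n => (classLambda m a n : ℂ)) N x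

theorem norm_classTwist_le (m a N : ℕ) (x : ℝ) : ‖classTwist m a N x‖ ≤ 6 * N := by
  refine (norm_sum_le _ _).trans ((sum_le_sum fun n _ => ?_).trans (sum_vonMangoldt_le N))
  rw [norm_mul, norm_eAdd, mul_one, Complex.norm_real, Real.norm_eq_abs,
    abs_of_nonneg (classLambda_nonneg m a n)]
  exact classLambda_le m a n

/-- The class sum at `r / q` by the sums over all primes. -/
theorem classLambda_mul_eq {m q : ℕ} (hm : 0 < m) (hq : 0 < q) (a r n : ℕ) :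
    (m : ℂ) * ((classLambda m a n : ℂ) * eAdd ((r : ℝ) * n / q)) =
      ∑ h ∈ range m, eAdd (-((h : ℝ) * a / m)) *
        ((Λ n : ℂ) * eAdd ((((r * m + h * q : ℕ) : ℤ) : ℝ) * n / (q * m : ℕ))) := by
  simp only [mul_left_comm (eAdd _) ((Λ n : ℝ) : ℂ)]
  rw [← mul_sum, sum_class_indicator hm hq a r n, classLambda]
  split_ifs
  · ring
  · simp

/-- **A major arc.** -/
theorem exists_class_major (B E : ℕ) : ∃ C : ℝ, 0 < C ∧ ∀ (m a N q r : ℕ) (β : ℝ), 0 < m →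
    0 < q → 2 ≤ N → ((q * m : ℕ) : ℝ) ≤ Real.log N ^ B →
      ‖classTwist m a N ((r : ℝ) / q + β) - classFactor m a q r * geomSum N β‖ ≤
        C * (N / Real.log N ^ E) * (1 + 2 * π * |β| * N) := by
  obtain ⟨C, hC, h⟩ := WaringGoldbach.exists_primeSum_sub_le 1 B E
  refine ⟨C, hC, fun m a N q r β hm hq hN hqm => ?_⟩
  have : NeZero (q * m) := ⟨(Nat.mul_pos hq hm).ne'⟩
  have e : classTwist m a N ((r : ℝ) / q + β) - classFactor m a q r * geomSum N β =
      ∑ n ∈ Ioc 0 N, ((classLambda m a n : ℂ) * eAdd ((r : ℝ) * n / q) - classFactor m a q r) *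
        eAdd (n * β) := by
    rw [classTwist, trigSum, geomSum, mul_sum, show Icc 1 N = Ioc 0 N from rfl, ← sum_sub_distrib]
    refine sum_congr rfl fun n _ => ?_
    rw [mul_add, eAdd_add, show (n : ℝ) * ((r : ℝ) / q) = (r : ℝ) * n / q by ring]
    ring
  rw [e]
  refine norm_sum_mul_eAdd_le _ β N fun j hj => ?_
  refine le_of_mul_le_mul_left ?_ (show (0 : ℝ) < m from Nat.cast_pos.2 hm)
  rw [← Complex.norm_natCast m, ← norm_mul, Complex.norm_natCast, mul_sum]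
  simp only [mul_sub, classLambda_mul_eq hm hq, classFactor_eq_average hm hq]
  simp only [← sum_sub_distrib, ← mul_sub]
  rw [sum_comm]
  refine (norm_sum_le _ _).trans ((sum_le_card_nsmul _ _ (C * (N / Real.log N ^ E))
    fun i _ => ?_).trans (le_of_eq ?_))
  · rw [← mul_sum, norm_mul, norm_eAdd, one_mul, sum_sub_distrib, sum_const, Nat.card_Ioc,
      Nat.sub_zero, nsmul_eq_mul, mul_comm (j : ℂ)]
    simpa only [pow_one] using h N (q * m) ((r * m + i * q : ℕ) : ℤ) hN hqm j hj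
  · rw [card_range, nsmul_eq_mul]

/-- A fraction is a centre up to an integer. -/
theorem exists_centre {n P : ℕ} (c : ℤ) (hn : 0 < n) (hnP : n ≤ P) :
    ∃ z ∈ arcCentres P, ∃ j : ℤ, (c : ℝ) / n = centre z + j := by
  obtain ⟨ρ, hρ⟩ : ∃ ρ : ℚ, ρ = (c : ℚ) / (n : ℕ) := ⟨_, rfl⟩
  have hden : ρ.den ∣ n := by
    have h1 := Rat.den_dvd c (n : ℤ)
    rw [Rat.divInt_eq_div, Int.cast_natCast, ← hρ] at h1
    exact Int.natCast_dvd_natCast.1 h1
  obtain ⟨r, hr⟩ : ∃ r, r = (ρ.num % (ρ.den : ℤ)).toNat := ⟨_, rfl⟩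
  have hd0 : (0 : ℤ) < ρ.den := Int.natCast_pos.2 ρ.den_pos
  have hr' : (r : ℤ) = ρ.num % (ρ.den : ℤ) :=
    hr ▸ Int.toNat_of_nonneg (Int.emod_nonneg _ hd0.ne')
  refine ⟨⟨ρ.den, r⟩, mem_arcCentres.2 ⟨⟨ρ.den_pos, (Nat.le_of_dvd hn hden).trans hnP⟩, ?_, ?_⟩,
    ρ.num / (ρ.den : ℤ), ?_⟩
  · have := Int.emod_lt_of_pos ρ.num hd0
    simp only
    omega
  · have h1 : IsCoprime ρ.num (ρ.den : ℤ) := by
      rw [Int.isCoprime_iff_nat_coprime, Int.natAbs_natCast]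
      exact ρ.reduced
    have h2 : IsCoprime (r : ℤ) (ρ.den : ℤ) := by
      rw [hr', Int.emod_def, sub_eq_add_neg, ← mul_neg]
      exact h1.add_mul_left_left _
    simp only
    exact (Nat.isCoprime_iff_coprime.1 h2).symm
  · have h1 : ((c : ℚ) / (n : ℕ) : ℚ) = (ρ.num : ℚ) / ρ.den := by rw [← hρ, Rat.num_div_den]
    have h2 : (c : ℝ) / n = (ρ.num : ℝ) / ρ.den := by
      have := congrArg (fun x : ℚ => (x : ℝ)) h1
      push_cast at this
      exact this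
    have h3 : (ρ.num : ℝ) = (r : ℝ) + (ρ.den : ℝ) * ((ρ.num / (ρ.den : ℤ) : ℤ) : ℝ) := by
      exact_mod_cast (show ρ.num = (r : ℤ) + (ρ.den : ℤ) * (ρ.num / (ρ.den : ℤ)) by
        rw [hr']; exact (Int.emod_add_mul_ediv _ _).symm)
    have h4 : (ρ.den : ℝ) ≠ 0 := Nat.cast_ne_zero.2 ρ.den_nz
    rw [h2, centre]
    simp only
    obtain ⟨t, ht⟩ : ∃ t : ℝ, t = ((ρ.num / (ρ.den : ℤ) : ℤ) : ℝ) := ⟨_, rfl⟩
    rw [← ht] at h3 ⊢
    rw [h3]
    field_simp

/-- **The minor arcs.** -/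
theorem exists_class_minor (b : ℕ) : ∃ C : ℝ, 0 < C ∧ ∀ (m a N : ℕ) (α : ℝ), 0 < m →
    1 ≤ Real.log N → Real.log N ^ (2 * b) ≤ N →
    (∀ z ∈ arcCentres (m * ⌊Real.log N ^ (2 * b)⌋₊),
      Real.log N ^ (2 * b) / N < nearDist (α - centre z)) →
      ‖classTwist m a N α‖ ≤ C * ((N : ℝ) * Real.log N ^ 4 / Real.log N ^ b) := by
  obtain ⟨C, hC, hmin⟩ := exists_minor_le b
  refine ⟨C, hC, fun m a N α hm hl hRN hout => ?_⟩
  obtain ⟨P, hP⟩ : ∃ P, P = ⌊Real.log N ^ (2 * b)⌋₊ := ⟨_, rfl⟩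
  rw [← hP] at hout
  have key : (m : ℂ) * classTwist m a N α =
      ∑ h ∈ range m, eAdd (-((h : ℝ) * a / m)) * twist (α + (h : ℝ) / m) Λ N := by
    rw [classTwist, trigSum, show Icc 1 N = Ioc 0 N from rfl, mul_sum]
    simp only [twist, mul_sum]
    rw [sum_comm]
    refine sum_congr rfl fun n _ => ?_
    have h0 := classLambda_mul_eq (q := 1) hm one_pos a 0 n
    simp only [Nat.cast_zero, zero_mul, zero_div, eAdd_zero, mul_one] at h0
    rw [show (m : ℂ) * ((classLambda m a n : ℂ) * eAdd ((n : ℝ) * α)) =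
      (m : ℂ) * (classLambda m a n : ℂ) * eAdd ((n : ℝ) * α) by ring, h0, sum_mul]
    refine sum_congr rfl fun h _ => ?_
    rw [mul_add, eAdd_add]
    push_cast
    ring_nf
  refine le_of_mul_le_mul_left ?_ (show (0 : ℝ) < m from Nat.cast_pos.2 hm)
  rw [← Complex.norm_natCast m, ← norm_mul, Complex.norm_natCast, key]
  refine (norm_sum_le _ _).trans ((sum_le_card_nsmul _ _
    (C * ((N : ℝ) * Real.log N ^ 4 / Real.log N ^ b)) fun h hh => ?_).trans (le_of_eq ?_))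
  · rw [norm_mul, norm_eAdd, one_mul]
    refine hmin N P _ hl hRN hP fun z hz => ?_
    obtain ⟨q, r⟩ := z
    rw [mem_arcCentres] at hz
    obtain ⟨⟨hq, hqP⟩, -, -⟩ := hz
    simp only at hq hqP
    obtain ⟨w, hw, j, hj⟩ := exists_centre (n := q * m) (P := m * P)
      ((r : ℤ) * m - (h : ℤ) * q) (Nat.mul_pos hq hm)
      (by rw [mul_comm]; exact Nat.mul_le_mul_left m hqP)
    have e : α + (h : ℝ) / m - centre ⟨q, r⟩ = α - centre w + ((-j : ℤ) : ℝ) := by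
      have hm' : (m : ℝ) ≠ 0 := Nat.cast_ne_zero.2 hm.ne'
      have hq' : (q : ℝ) ≠ 0 := Nat.cast_ne_zero.2 (by omega)
      have e1 : (((r : ℤ) * m - (h : ℤ) * q : ℤ) : ℝ) / (q * m : ℕ) =
          centre ⟨q, r⟩ - (h : ℝ) / m := by
        rw [centre]
        push_cast
        field_simp
      rw [e1] at hj
      push_cast
      linarith
    rw [e, nearDist_add_intCast]
    exact hout w hw
  · rw [card_range, nsmul_eq_mul]

theorem sum_norm_sq_classTwist_le {m a N M : ℕ} (hM : N < M) :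
    ∑ h ∈ range M, ‖classTwist m a N ((h : ℝ) / M)‖ ^ 2 ≤ M * (6 * N * Real.log N) := by
  simp only [classTwist]
  rw [sum_norm_sq_grid _ hM]
  refine mul_le_mul_of_nonneg_left ?_ (Nat.cast_nonneg M)
  refine (sum_le_sum (g := fun n => Real.log N * Λ n) fun n hn => ?_).trans ?_
  · rw [mem_Icc] at hn
    rw [Complex.norm_real, Real.norm_eq_abs, sq_abs, sq]
    exact mul_le_mul ((classLambda_le m a n).trans (vonMangoldt_le_log.trans
      (Real.log_le_log (Nat.cast_pos.2 hn.1) (Nat.cast_le.2 hn.2)))) (classLambda_le m a n)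
      (classLambda_nonneg m a n) (Real.log_natCast_nonneg N)
  · rw [← mul_sum, mul_comm _ (Real.log N)]
    exact mul_le_mul_of_nonneg_left (sum_vonMangoldt_le N) (Real.log_natCast_nonneg N)

/-- **The grid for three different weights.** -/
theorem sum_triple_grid (f g u : ℕ → ℂ) {N M : ℕ} (hM : 3 * N ≤ M) (θ : ℝ) :
    ∑ h ∈ range M, trigSum f N (h / M + θ) * trigSum g N (h / M + θ) * trigSum u N (h / M + θ) *
        eAdd (-(N * (h / M + θ))) =
      M * ∑ i ∈ Icc 1 N, ∑ j ∈ Icc 1 N, ∑ k ∈ Icc 1 N,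
        if i + j + k = N then f i * g j * u k else 0 := by
  have e : ∀ x : ℝ, trigSum f N x * trigSum g N x * trigSum u N x * eAdd (-(N * x)) =
      ∑ i ∈ Icc 1 N, ∑ j ∈ Icc 1 N, ∑ k ∈ Icc 1 N,
        f i * g j * u k * eAdd ((((i : ℤ) + j + k - N : ℤ) : ℝ) * x) := by
    intro x
    rw [trigSum, trigSum, trigSum, sum_mul_sum, sum_mul, sum_mul]
    simp only [sum_mul, mul_sum]
    refine sum_congr rfl fun i _ => ?_
    rw [sum_comm]
    refine sum_congr rfl fun j _ => sum_congr rfl fun k _ => ?_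
    push_cast
    rw [show ((i : ℝ) + j + k - N) * x = i * x + j * x + k * x + -(N * x) by ring,
      eAdd_add, eAdd_add, eAdd_add]
    ring
  simp only [e]
  rw [sum_comm, mul_sum]
  refine sum_congr rfl fun i hi => ?_
  rw [sum_comm, mul_sum]
  refine sum_congr rfl fun j hj => ?_
  rw [sum_comm, mul_sum]
  refine sum_congr rfl fun k hk => ?_
  rw [mem_Icc] at hi hj hk
  simp only [mul_add, eAdd_add, ← mul_assoc]
  rw [← sum_mul, ← mul_sum]
  simp only [← mul_div_assoc]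
  rw [sum_eAdd_grid (by omega)]
  by_cases h : i + j + k = N
  · rw [if_pos h, show ((i : ℤ) + j + k - N) = 0 by omega, if_pos (dvd_zero _)]
    simp
    ring
  · rw [if_neg h, if_neg]
    · simp
    · intro hd
      have := Int.le_of_dvd (abs_pos.2 (show ((i : ℤ) + j + k - N) ≠ 0 by omega))
        ((dvd_abs _ _).2 hd)
      have : |((i : ℤ) + j + k - N)| < M := abs_lt.2 ⟨by omega, by omega⟩
      omega

theorem norm_mul₃_sub_le {x₁ x₂ x₃ y₁ y₂ y₃ : ℂ} {R : ℝ} (hx₂ : ‖x₂‖ ≤ R) (hx₃ : ‖x₃‖ ≤ R)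
    (hy₁ : ‖y₁‖ ≤ R) (hy₂ : ‖y₂‖ ≤ R) :
    ‖x₁ * x₂ * x₃ - y₁ * y₂ * y₃‖ ≤ R ^ 2 * (‖x₁ - y₁‖ + ‖x₂ - y₂‖ + ‖x₃ - y₃‖) := by
  have hR : 0 ≤ R := (norm_nonneg _).trans hx₂
  rw [show x₁ * x₂ * x₃ - y₁ * y₂ * y₃ =
    (x₁ - y₁) * x₂ * x₃ + y₁ * (x₂ - y₂) * x₃ + y₁ * y₂ * (x₃ - y₃) by ring, sq, mul_add, mul_add]
  refine norm_add₃_le.trans (add_le_add (add_le_add ?_ ?_) ?_) <;> rw [norm_mul, norm_mul]
  · calc ‖x₁ - y₁‖ * ‖x₂‖ * ‖x₃‖ ≤ ‖x₁ - y₁‖ * R * R := by gcongr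
      _ = _ := by ring
  · calc ‖y₁‖ * ‖x₂ - y₂‖ * ‖x₃‖ ≤ R * ‖x₂ - y₂‖ * R := by gcongr
      _ = _ := by ring
  · calc ‖y₁‖ * ‖y₂‖ * ‖x₃ - y₃‖ ≤ R * R * ‖x₃ - y₃‖ := by gcongr
      _ = _ := by ring

end FA.ThreePrimesClasses
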