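import Fermat.Agent.ThreePrimesClasses.Factor

/-!
# The singular series for three primes in prescribed classes

For `N ≡ a₁ + a₂ + a₃ (mod m)` the sum over `q ≤ P` of the coefficients of the arcs is
`m / φ (m) ^ 3 𝔖_m (N)` up to `O (P ^ (- 1/4))`, `𝔖_m (N)` being the Euler product of the singular
series over the primes not dividing `m`, at least `1/2` if `m` is even or `N` is odd.
-/

set_option autoImplicit false

noncomputable section

namespace FA.ThreePrimesClasses

open Finset Complex Filter ArithmeticFunction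
open FA.ThreePrimes
open scoped Topology

/-- The terms prime to `m`. -/
def classPart (m N : ℕ) : ArithmeticFunction ℝ :=
  ⟨fun d => if d.Coprime m then singularTerm N d else 0, by simp⟩

theorem classPart_apply (m N d : ℕ) :
    classPart m N d = if d.Coprime m then singularTerm N d else 0 := rfl

theorem classPart_isMultiplicative (m N : ℕ) : (classPart m N).IsMultiplicative := by
  refine ⟨by simp [classPart_apply, (singularTerm_isMultiplicative N).1], fun {u v} h => ?_⟩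
  simp only [classPart_apply, Nat.coprime_mul_iff_left]
  by_cases hu : u.Coprime m <;> by_cases hv : v.Coprime m
  · rw [if_pos ⟨hu, hv⟩, if_pos hu, if_pos hv, (singularTerm_isMultiplicative N).2 h]
  · rw [if_neg fun h' => hv h'.2, if_neg hv, mul_zero]
  · rw [if_neg fun h' => hu h'.1, if_neg hu, zero_mul]
  · rw [if_neg fun h' => hu h'.1, if_neg hu, zero_mul]

theorem abs_classPart_le (m N q : ℕ) : |classPart m N q| ≤ 4 * (q : ℝ) ^ (-(3 / 2) : ℝ) := by
  rw [classPart_apply]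
  split_ifs
  · exact abs_singularTerm_le N q
  · rw [abs_zero]
    positivity

theorem summable_classPart (m N : ℕ) : Summable fun q => ‖classPart m N q‖ :=
  Summable.of_nonneg_of_le (fun _ => norm_nonneg _) (fun q => abs_classPart_le m N q)
    ((Real.summable_nat_rpow.2 (by norm_num)).mul_left 4)

/-- The singular series without the primes of `m`. -/
def classSeries (m N : ℕ) : ℝ := ∑' d, classPart m N d

theorem exists_classPart_tail : ∃ C : ℝ, 0 < C ∧ ∀ m N K : ℕ,
    |classSeries m N - ∑ q ∈ Icc 1 K, classPart m N q| ≤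
      C * ((K + 1 : ℕ) : ℝ) ^ (-(1 / 4) : ℝ) ∧ |classSeries m N| ≤ C := by
  obtain ⟨Z, hZ⟩ : ∃ Z : ℝ, Z = ∑' q : ℕ, (q : ℝ) ^ (-(5 / 4) : ℝ) := ⟨_, rfl⟩
  have hs : Summable fun q : ℕ => (q : ℝ) ^ (-(5 / 4) : ℝ) :=
    Real.summable_nat_rpow.2 (by norm_num)
  have hZ0 : 0 ≤ Z := hZ ▸ tsum_nonneg fun q => by positivity
  refine ⟨4 * Z + 1, by positivity, fun m N K => ?_⟩
  have key : ∀ K : ℕ, |classSeries m N - ∑ q ∈ Icc 1 K, classPart m N q| ≤
      4 * Z * ((K + 1 : ℕ) : ℝ) ^ (-(1 / 4) : ℝ) := by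
    intro K
    have h0 : ∑ q ∈ Icc 1 K, classPart m N q = ∑ q ∈ range (K + 1), classPart m N q := by
      rw [range_eq_Ico, sum_eq_sum_Ico_succ_bot (Nat.succ_pos K), ArithmeticFunction.map_zero,
        zero_add]
      rfl
    rw [h0, classSeries, ← Summable.sum_add_tsum_nat_add (K + 1) (summable_classPart m N).of_norm,
      add_sub_cancel_left, ← Real.norm_eq_abs]
    refine (tsum_of_norm_bounded (f := fun i => classPart m N (i + (K + 1)))
      (g := fun i : ℕ => 4 * ((K + 1 : ℕ) : ℝ) ^ (-(1 / 4) : ℝ) *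
        ((i + (K + 1) : ℕ) : ℝ) ^ (-(5 / 4) : ℝ))
      (((summable_nat_add_iff (K + 1)).2 hs).mul_left _).hasSum fun i => ?_).trans ?_
    · refine (abs_classPart_le m N _).trans ?_
      have hi : (0 : ℝ) < ((i + (K + 1) : ℕ) : ℝ) := Nat.cast_pos.2 (by omega)
      rw [show (-(3 / 2) : ℝ) = -(1 / 4) + -(5 / 4) by norm_num, Real.rpow_add hi, mul_assoc]
      refine mul_le_mul_of_nonneg_left (mul_le_mul_of_nonneg_right ?_ (by positivity)) (by norm_num)
      exact Real.rpow_le_rpow_of_nonpos (Nat.cast_pos.2 (by omega)) (Nat.cast_le.2 (by omega))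
        (by norm_num)
    · rw [tsum_mul_left, mul_right_comm (4 : ℝ) Z]
      refine mul_le_mul_of_nonneg_left ?_ (by positivity)
      rw [hZ, ← Summable.sum_add_tsum_nat_add (K + 1) hs]
      exact le_add_of_nonneg_left (sum_nonneg fun q _ => by positivity)
  refine ⟨(key K).trans (mul_le_mul_of_nonneg_right (by linarith) (by positivity)), ?_⟩
  have h := key 0
  simp at h
  linarith

theorem tsum_classPart_prime_pow (m N : ℕ) {p : ℕ} (hp : p.Prime) :
    ∑' e, classPart m N (p ^ e) = if p ∣ m then 1 else 1 + singularTerm N p := by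
  rw [tsum_eq_sum (s := range 2) fun e he => ?_]
  · rw [sum_range_succ, sum_range_one, pow_zero, pow_one, (classPart_isMultiplicative m N).1,
      classPart_apply]
    by_cases h : p ∣ m
    · rw [if_pos h, if_neg fun hc => (hp.coprime_iff_not_dvd.1 hc) h, add_zero]
    · rw [if_neg h, if_pos (hp.coprime_iff_not_dvd.2 h)]
  · rw [mem_range] at he
    rw [classPart_apply, singularTerm_apply, moebiusR, intCoe_apply,
      moebius_apply_prime_pow hp (by omega), if_neg (show e ≠ 1 by omega)]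
    simp

theorem tendsto_classSeries (m N : ℕ) :
    Tendsto (fun n : ℕ => ∏ p ∈ n.primesBelow, if p ∣ m then 1 else 1 + singularTerm N p) atTop
      (𝓝 (classSeries m N)) :=
  ((classPart_isMultiplicative m N).eulerProduct (summable_classPart m N)).congr fun n =>
    prod_congr rfl fun p hp => tsum_classPart_prime_pow m N (Nat.mem_primesBelow.1 hp).2

/-- **At least `1/2`.** -/
theorem half_le_classSeries {m N : ℕ} (h : 2 ∣ m ∨ Odd N) : 1 / 2 ≤ classSeries m N := by
  refine ge_of_tendsto' (tendsto_classSeries m N) fun n => (half_le_prod_telescope n).trans ?_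
  refine le_trans (prod_le_prod_of_subset_of_le_one (s := n.primesBelow)
    (fun p hp => (mem_filter.1 hp).1)
    (fun j _ => (telescope_bounds j).1.le) fun j _ _ => (telescope_bounds j).2)
    (prod_le_prod (fun j _ => (telescope_bounds j).1.le) fun p hp => ?_)
  rw [Nat.mem_primesBelow] at hp
  split_ifs with hd
  · exact (telescope_bounds p).2
  rcases eq_or_ne p 2 with rfl | hp2
  · exact telescope_le_factor (h.resolve_left hd) hp.2
  rcases Nat.even_or_odd N with he | ho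
  · have hterm : singularTerm N p = singularTerm (N + p) p := by
      rw [singularTerm_apply, singularTerm_apply, ramanujan_prime N hp.2,
        ramanujan_prime (N + p) hp.2]
      simp only [Nat.dvd_add_self_right]
    rw [hterm]
    exact telescope_le_factor (he.add_odd (hp.2.odd_of_ne_two hp2)) hp.2
  · exact telescope_le_factor ho hp.2

/-- The sum over the centres with denominator `q`. -/
def classTerm (m a₁ a₂ a₃ N q : ℕ) : ℂ :=
  ∑ r ∈ unitResidues q, classFactor m a₁ q r * classFactor m a₂ q r * classFactor m a₃ q r *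
    eAdd (-((N : ℝ) * ((r : ℝ) / q)))

theorem ramanujan_congr {N N' q : ℕ} (h : ∀ e, e ∣ q → (e ∣ N' ↔ e ∣ N)) :
    ramanujan N' q = ramanujan N q := by
  rw [ramanujan, ramanujan, mul_apply, mul_apply]
  refine sum_congr rfl fun x hx => ?_
  rw [Nat.mem_divisorsAntidiagonal] at hx
  simp only [divPart_apply, h x.2 ⟨x.1, by rw [← hx.1, mul_comm]⟩]

theorem ramanujan_of_dvd {N q : ℕ} (hq : 0 < q) (h : q ∣ N) :
    ramanujan N q = (q.totient : ℝ) := by
  apply Complex.ofReal_injective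
  rw [ramanujan_eq hq, Complex.ofReal_natCast, ← card_unitResidues, Finset.cast_card]
  refine sum_congr rfl fun r _ => ?_
  obtain ⟨t, rfl⟩ := h
  have hq' : (q : ℝ) ≠ 0 := Nat.cast_ne_zero.2 hq.ne'
  rw [show (((-((q * t : ℕ) : ℤ)) : ℤ) : ℝ) * r / q = ((-(t * r : ℕ) : ℤ) : ℝ) by
    push_cast; field_simp]
  exact eAdd_intCast _

/-- **The term of `q = g d`.** -/
theorem classTerm_eq {m a₁ a₂ a₃ N g d : ℕ} (hm : 0 < m) (hd : 0 < d) (hgm : g ∣ m)
    (hdm : d.Coprime m) (h₁ : a₁.Coprime m) (h₂ : a₂.Coprime m) (h₃ : a₃.Coprime m)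
    (hN : N ≡ a₁ + a₂ + a₃ [MOD m]) :
    classTerm m a₁ a₂ a₃ N (g * d) =
      (((g.totient : ℝ) / (m.totient : ℝ) ^ 3 * classPart m N d : ℝ) : ℂ) := by
  obtain ⟨b₁, hb₁⟩ := exists_class_inverse hm hdm a₁
  obtain ⟨b₂, hb₂⟩ := exists_class_inverse hm hdm a₂
  obtain ⟨b₃, hb₃⟩ := exists_class_inverse hm hdm a₃
  have hg : 0 < g := Nat.pos_of_dvd_of_pos hgm hm
  obtain ⟨q, hq⟩ : ∃ q, q = g * d := ⟨_, rfl⟩
  have hq0 : 0 < q := hq ▸ Nat.mul_pos hg hd
  obtain ⟨B, hB⟩ : ∃ B, B = b₁ + b₂ + b₃ := ⟨_, rfl⟩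
  obtain ⟨n', hn'⟩ : ∃ n', n' = N + (q - 1) * (d * B) := ⟨_, rfl⟩
  obtain ⟨K, hK⟩ : ∃ K : ℝ, K = moebiusR d / ((m.totient : ℝ) * d.totient) := ⟨_, rfl⟩
  have hterm : ∀ r ∈ unitResidues q,
      classFactor m a₁ q r * classFactor m a₂ q r * classFactor m a₃ q r *
        eAdd (-((N : ℝ) * ((r : ℝ) / q))) =
      ((K ^ 3 : ℝ) : ℂ) * eAdd (((-n' : ℤ) : ℝ) * r / q) := by
    intro r hr
    rw [unitResidues, mem_filter, hq] at hr
    subst hq
    rw [classFactor_eq hm hd hgm hdm hr.2 h₁ hb₁, classFactor_eq hm hd hgm hdm hr.2 h₂ hb₂,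
      classFactor_eq hm hd hgm hdm hr.2 h₃ hb₃, ← hK]
    have e : eAdd ((r : ℝ) * b₁ / g) * eAdd ((r : ℝ) * b₂ / g) * eAdd ((r : ℝ) * b₃ / g) *
        eAdd (-((N : ℝ) * ((r : ℝ) / (g * d : ℕ)))) =
        eAdd (((-n' : ℤ) : ℝ) * r / (g * d : ℕ)) := by
      rw [← eAdd_add, ← eAdd_add, ← eAdd_add,
        ← eAdd_add_intCast (((-n' : ℤ) : ℝ) * r / (g * d : ℕ)) ((r * (d * B) : ℕ) : ℤ)]
      congr 1
      rw [hn', hB]
      have hg' : (g : ℝ) ≠ 0 := Nat.cast_ne_zero.2 hg.ne'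
      have hd' : (d : ℝ) ≠ 0 := Nat.cast_ne_zero.2 hd.ne'
      push_cast [Nat.cast_sub (show 1 ≤ g * d from Nat.mul_pos hg hd)]
      field_simp
      ring
    rw [← e]
    push_cast
    ring
  rw [classTerm, ← hq, sum_congr rfl hterm, ← mul_sum, ← ramanujan_eq hq0, ← Complex.ofReal_mul]
  congr 1
  have hmult : (ramanujan n').IsMultiplicative :=
    moebiusR_isMultiplicative.mul (divPart_isMultiplicative n')
  have hcop : g.Coprime d := (hdm.coprime_dvd_right hgm).symm
  have e1 : ramanujan n' d = ramanujan N d := ramanujan_congr fun e he => by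
    rw [hn']
    exact Nat.dvd_add_left ((he.trans (dvd_mul_right d B)).trans (dvd_mul_left _ _))
  have e2 : g ∣ n' := by
    have h4 : d * B ≡ N [MOD m] := by
      rw [hB, mul_add, mul_add]
      exact ((Nat.ModEq.add (Nat.ModEq.add hb₁ hb₂) hb₃).trans hN.symm)
    have h5 : n' + d * B ≡ N [MOD g] := by
      have h6 : n' + d * B = N + q * (d * B) := by
        rw [hn', add_assoc, ← add_one_mul, Nat.sub_add_cancel (show 1 ≤ q from hq0)]
      rw [h6]
      exact ((Nat.modEq_zero_iff_dvd.2 ((hq ▸ dvd_mul_right g d).trans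
        (dvd_mul_right _ _))).add_left N).trans (by rw [add_zero])
    exact Nat.modEq_zero_iff_dvd.1
      (Nat.ModEq.add_right_cancel (h4.of_dvd hgm) (h5.trans (by rw [zero_add])))
  rw [hq, hmult.2 hcop, ramanujan_of_dvd hg e2, e1, classPart_apply, if_pos hdm,
    singularTerm_apply, hK, div_pow, mul_pow, moebiusR_cube]
  ring

theorem classTerm_eq_zero {m a₁ a₂ a₃ N q : ℕ} (hm : 0 < m) (hq : 0 < q) (h₁ : a₁.Coprime m)
    (h : ¬ (q / q.gcd m).Coprime m) : classTerm m a₁ a₂ a₃ N q = 0 := by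
  refine sum_eq_zero fun r hr => ?_
  rw [classFactor_eq_zero hm hq (mem_filter.1 hr).2 h₁ h]
  simp

/-- The total over the classes. -/
def classMain (m N : ℕ) : ℝ := (m : ℝ) / (m.totient : ℝ) ^ 3 * classSeries m N

/-- **The sum over `q ≤ P`.** -/
theorem exists_classTerm_sum {m a₁ a₂ a₃ : ℕ} (hm : 0 < m) (h₁ : a₁.Coprime m)
    (h₂ : a₂.Coprime m) (h₃ : a₃.Coprime m) :
    ∃ C : ℝ, 0 < C ∧ ∀ N P : ℕ, N ≡ a₁ + a₂ + a₃ [MOD m] →
      ‖(∑ q ∈ Icc 1 P, classTerm m a₁ a₂ a₃ N q) - (classMain m N : ℂ)‖ ≤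
        C * ((P + 1 : ℕ) : ℝ) ^ (-(1 / 4) : ℝ) ∧ |classMain m N| ≤ C := by
  classical
  obtain ⟨C, hC, htail⟩ := exists_classPart_tail
  have hmr : (0 : ℝ) < m := Nat.cast_pos.2 hm
  have hφ : (1 : ℝ) ≤ (m.totient : ℝ) := Nat.one_le_cast.2 (Nat.totient_pos.2 hm)
  refine ⟨C * ((m : ℝ) ^ 2 + m), by positivity, fun N P hN => ?_⟩
  have hsplit : ∑ q ∈ Icc 1 P, classTerm m a₁ a₂ a₃ N q = ((∑ g ∈ m.divisors,
      (g.totient : ℝ) / (m.totient : ℝ) ^ 3 * ∑ d ∈ Icc 1 (P / g), classPart m N d : ℝ) : ℂ) := by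
    rw [← sum_fiberwise_of_maps_to (g := fun q => q.gcd m) (t := m.divisors) fun q _ =>
      Nat.mem_divisors.2 ⟨Nat.gcd_dvd_right q m, hm.ne'⟩, Complex.ofReal_sum]
    refine sum_congr rfl fun g hg => ?_
    rw [Nat.mem_divisors] at hg
    have hg0 : 0 < g := Nat.pos_of_dvd_of_pos hg.1 hm
    rw [mul_sum, Complex.ofReal_sum,
      ← sum_filter_add_sum_filter_not ((Icc 1 P).filter fun q => q.gcd m = g)
        (fun q => (q / g).Coprime m),
      sum_eq_zero (s := ((Icc 1 P).filter fun q => q.gcd m = g).filter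
        fun q => ¬ (q / g).Coprime m) fun q hq => ?_, add_zero]
    swap
    · rw [mem_filter, mem_filter, mem_Icc] at hq
      exact classTerm_eq_zero hm hq.1.1.1 h₁ (hq.1.2.symm ▸ hq.2)
    rw [← sum_filter_add_sum_filter_not (Icc 1 (P / g)) (fun d => d.Coprime m)
        (fun d => (((g.totient : ℝ) / (m.totient : ℝ) ^ 3 * classPart m N d : ℝ) : ℂ)),
      sum_eq_zero (s := (Icc 1 (P / g)).filter fun d => ¬ d.Coprime m) fun d hd => ?_, add_zero]
    swap
    · rw [classPart_apply, if_neg (mem_filter.1 hd).2, mul_zero, Complex.ofReal_zero]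
    refine sum_nbij' (fun q => q / g) (fun d => g * d) (fun q hq => ?_) (fun d hd => ?_)
      (fun q hq => ?_) (fun d _ => Nat.mul_div_cancel_left d hg0) (fun q hq => ?_)
    · rw [mem_filter, mem_filter, mem_Icc] at hq
      have hdvd : g ∣ q := hq.1.2 ▸ Nat.gcd_dvd_left q m
      exact mem_filter.2 ⟨mem_Icc.2 ⟨Nat.div_pos (Nat.le_of_dvd hq.1.1.1 hdvd) hg0,
        Nat.div_le_div_right hq.1.1.2⟩, hq.2⟩
    · rw [mem_filter, mem_Icc] at hd
      rw [mem_filter, mem_filter, mem_Icc, Nat.mul_div_cancel_left d hg0,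
        hd.2.gcd_mul_right_cancel, Nat.gcd_eq_left hg.1]
      refine ⟨⟨⟨Nat.mul_pos hg0 hd.1.1, ?_⟩, rfl⟩, hd.2⟩
      exact (Nat.mul_le_mul_left g hd.1.2).trans (Nat.mul_div_le P g)
    · rw [mem_filter, mem_filter] at hq
      exact Nat.mul_div_cancel' (hq.1.2 ▸ Nat.gcd_dvd_left q m)
    · rw [mem_filter, mem_filter, mem_Icc] at hq
      have hdvd : g ∣ q := hq.1.2 ▸ Nat.gcd_dvd_left q m
      have h := classTerm_eq (d := q / g) hm (Nat.div_pos (Nat.le_of_dvd hq.1.1.1 hdvd) hg0) hg.1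
        hq.2 h₁ h₂ h₃ hN
      rwa [Nat.mul_div_cancel' hdvd] at h
  have hmain : classMain m N =
      ∑ g ∈ m.divisors, (g.totient : ℝ) / (m.totient : ℝ) ^ 3 * classSeries m N := by
    rw [classMain, ← sum_mul, ← sum_div, ← Nat.cast_sum, Nat.sum_totient]
  refine ⟨?_, ?_⟩
  · rw [hsplit, hmain, ← Complex.ofReal_sub, Complex.norm_real, Real.norm_eq_abs,
      ← sum_sub_distrib]
    refine (abs_sum_le_sum_abs _ _).trans ((sum_le_sum (g := fun g : ℕ => (g.totient : ℝ) *
      (C * (m * ((P + 1 : ℕ) : ℝ) ^ (-(1 / 4) : ℝ)))) fun g hg => ?_).trans ?_)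
    · rw [Nat.mem_divisors] at hg
      have hg0 : 0 < g := Nat.pos_of_dvd_of_pos hg.1 hm
      rw [← mul_sub, abs_mul, abs_sub_comm,
        abs_of_nonneg (show (0 : ℝ) ≤ (g.totient : ℝ) / (m.totient : ℝ) ^ 3 by positivity)]
      refine mul_le_mul (div_le_self (Nat.cast_nonneg _) (one_le_pow₀ hφ))
        ((htail m N (P / g)).1.trans (mul_le_mul_of_nonneg_left ?_ hC.le)) (abs_nonneg _)
        (Nat.cast_nonneg _)
      have hP1 : (0 : ℝ) < ((P + 1 : ℕ) : ℝ) := Nat.cast_pos.2 (Nat.succ_pos P)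
      have hle : ((P + 1 : ℕ) : ℝ) / m ≤ ((P / g + 1 : ℕ) : ℝ) := by
        rw [div_le_iff₀ hmr]
        have h1 : P + 1 ≤ (P / g + 1) * g := by
          have := Nat.lt_div_mul_add (a := P) hg0
          rw [add_one_mul]
          omega
        exact_mod_cast h1.trans (Nat.mul_le_mul_left _ (Nat.le_of_dvd hm hg.1))
      refine (Real.rpow_le_rpow_of_nonpos (by positivity) hle (by norm_num)).trans ?_
      rw [Real.div_rpow hP1.le hmr.le, Real.rpow_neg hmr.le, div_inv_eq_mul, mul_comm]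
      refine mul_le_mul_of_nonneg_right ?_ (by positivity)
      exact (Real.rpow_le_rpow_of_exponent_le (Nat.one_le_cast.2 hm)
        (show (1 / 4 : ℝ) ≤ 1 by norm_num)).trans (le_of_eq (Real.rpow_one _))
    · rw [← sum_mul, ← Nat.cast_sum, Nat.sum_totient]
      have : 0 ≤ C * (m : ℝ) * ((P + 1 : ℕ) : ℝ) ^ (-(1 / 4) : ℝ) := by positivity
      linarith
  · rw [classMain, abs_mul, abs_of_nonneg (show (0 : ℝ) ≤ (m : ℝ) / (m.totient : ℝ) ^ 3 by
      positivity)]
    refine (mul_le_mul (div_le_self hmr.le (one_le_pow₀ hφ)) (htail m N 0).2 (abs_nonneg _)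
      hmr.le).trans ?_
    have : 0 ≤ C * (m : ℝ) ^ 2 := by positivity
    linarith

end FA.ThreePrimesClasses
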