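import Fermat.Agent.ThreePrimesClasses.Arcs
import Fermat.Agent.ThreePrimesClasses.Series

/-!
# The circle method for three primes in prescribed classes

`∑ Λ n₁ Λ n₂ Λ n₃` over `n₁ + n₂ + n₃ = N`, `n_i ≡ a_i (mod m)`, is
`m / φ (m) ^ 3 𝔖_m (N) N² / 2 + O (N² / (log N) ^ e)` for large `N ≡ a₁ + a₂ + a₃ (mod m)`.
-/

set_option autoImplicit false

noncomputable section

namespace FA.ThreePrimesClasses

open Finset Complex ArithmeticFunction
open FA.ThreePrimes
open scoped Real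

/-- The weighted representations of `N`. -/
def classTriple (m a₁ a₂ a₃ N : ℕ) : ℂ :=
  ∑ i ∈ Icc 1 N, ∑ j ∈ Icc 1 N, ∑ k ∈ Icc 1 N, if i + j + k = N then
    (classLambda m a₁ i : ℂ) * (classLambda m a₂ j : ℂ) * (classLambda m a₃ k : ℂ) else 0

/-- **The asymptotic formula for large `N`.** -/
theorem exists_class_asymptotic_large {m a₁ a₂ a₃ : ℕ} (hm : 0 < m) (h₁ : a₁.Coprime m)
    (h₂ : a₂.Coprime m) (h₃ : a₃.Coprime m) (e : ℕ) :
    ∃ (C : ℝ) (N₀ : ℕ), 0 < C ∧ ∀ N : ℕ, N₀ ≤ N → N ≡ a₁ + a₂ + a₃ [MOD m] →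
      ‖classTriple m a₁ a₂ a₃ N - ((classMain m N * ((N : ℝ) ^ 2 / 2) : ℝ) : ℂ)‖ ≤
        C * ((N : ℝ) ^ 2 / Real.log N ^ e) := by
  obtain ⟨b, hb⟩ : ∃ b, b = 2 * e + 6 := ⟨_, rfl⟩
  obtain ⟨C₁, hC₁, hmin⟩ := exists_class_minor b
  obtain ⟨C₂, hC₂, hmaj⟩ := exists_class_major (2 * b + 1) (8 * b + 3 + e)
  obtain ⟨Cs, hCs, hser⟩ := exists_classTerm_sum hm h₁ h₂ h₃
  obtain ⟨K, hK, hpow⟩ := exists_log_pow_le (6 * b + 2)
  obtain ⟨K', hK', hpow'⟩ := exists_log_pow_le e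
  obtain ⟨Z₀, hZ₀⟩ : ∃ Z₀ : ℝ, Z₀ = (m : ℝ) ^ 3 * (4 * ∑' q : ℕ, (q : ℝ) ^ (-(3 / 2) : ℝ)) :=
    ⟨_, rfl⟩
  have hZ₀0 : 0 ≤ Z₀ := hZ₀ ▸ mul_nonneg (by positivity)
    (mul_nonneg (by norm_num) (tsum_nonneg fun q => by positivity))
  refine ⟨6 * C₁ + 15000 * C₂ + 20 * Z₀ + 2 * Cs * K' + Cs,
    max (max ⌈(2 * K + 1) ^ 2⌉₊ 8) ⌈Real.exp ((m : ℝ) ^ 2)⌉₊, by positivity,
    fun N hN hmod => ?_⟩
  have hN8 : 8 ≤ N := le_trans (le_trans (le_max_right _ _) (le_max_left _ _)) hN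
  have hN0 : 0 < N := by omega
  have hN1 : (1 : ℝ) ≤ N := by exact_mod_cast hN0
  obtain ⟨l, hl⟩ : ∃ l, l = Real.log N := ⟨_, rfl⟩
  have hlm : (m : ℝ) ^ 2 ≤ l := by
    rw [hl, Real.le_log_iff_exp_le (by linarith)]
    exact (Nat.le_ceil _).trans (Nat.cast_le.2 (le_trans (le_max_right _ _) hN))
  have hl2 : 2 ≤ l := by
    rw [hl, Real.le_log_iff_exp_le (by linarith), show (2 : ℝ) = ((2 : ℕ) : ℝ) * 1 by norm_num,
      Real.exp_nat_mul]
    have h8 : (8 : ℝ) ≤ N := by exact_mod_cast hN8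
    have h3 : Real.exp 1 ≤ 2.7182818286 := Real.exp_one_lt_d9.le
    refine le_trans ?_ h8
    nlinarith [Real.exp_pos 1]
  have hl1 : 1 ≤ l := by linarith
  have hl0 : 0 < l := by linarith
  rw [← hl]
  have hm1 : (1 : ℝ) ≤ m := Nat.one_le_cast.2 hm
  have hml : (m : ℝ) ≤ l := le_trans (le_self_pow₀ hm1 two_ne_zero) hlm
  obtain ⟨R, hR⟩ : ∃ R, R = l ^ (2 * b) := ⟨_, rfl⟩
  have hR1 : 1 ≤ R := hR ▸ one_le_pow₀ hl1
  have hR3 : 2 * R * ((l * R) * (l * R)) < N := by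
    have h1 : (2 * K + 1) ^ 2 ≤ (N : ℝ) := (Nat.le_ceil _).trans
      (Nat.cast_le.2 (le_trans (le_trans (le_max_left _ _) (le_max_left _ _)) hN))
    have h2 : 2 * K < √(N : ℝ) := by
      rw [Real.lt_sqrt (by positivity)]
      nlinarith
    rw [show 2 * R * (l * R * (l * R)) = 2 * (R ^ 3 * l ^ 2) by ring, hR, ← pow_mul, ← pow_add,
      show 2 * b * 3 + 2 = 6 * b + 2 by ring]
    calc 2 * l ^ (6 * b + 2) ≤ 2 * K * √(N : ℝ) := by
          rw [mul_assoc]
          exact mul_le_mul_of_nonneg_left (hl ▸ hpow N hN1) two_pos.le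
      _ < √(N : ℝ) * √(N : ℝ) := mul_lt_mul_of_pos_right h2 (Real.sqrt_pos.2 (by linarith))
      _ = N := Real.mul_self_sqrt (Nat.cast_nonneg N)
  have hRN : R ≤ N := by
    have h4 : 1 ≤ (l * R) * (l * R) :=
      one_le_mul_of_one_le_of_one_le (one_le_mul_of_one_le_of_one_le hl1 hR1)
        (one_le_mul_of_one_le_of_one_le hl1 hR1)
    have := le_mul_of_one_le_right (show 0 ≤ 2 * R by linarith) h4
    linarith
  obtain ⟨P, hP⟩ : ∃ P, P = m * ⌊R⌋₊ := ⟨_, rfl⟩
  have hPR : (P : ℝ) ≤ m * R := by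
    rw [hP, Nat.cast_mul]
    exact mul_le_mul_of_nonneg_left (Nat.floor_le (by linarith)) (Nat.cast_nonneg m)
  have hPlR : (P : ℝ) ≤ l * R := hPR.trans (mul_le_mul_of_nonneg_right hml (by linarith))
  have hRP : R ≤ ((P + 1 : ℕ) : ℝ) := by
    refine (Nat.lt_floor_add_one R).le.trans ?_
    exact_mod_cast Nat.add_le_add_right (hP ▸ Nat.le_mul_of_pos_left _ hm) 1
  obtain ⟨M, hM⟩ : ∃ M, M = 3 * N := ⟨_, rfl⟩
  have : NeZero M := ⟨by omega⟩
  have hM' : (M : ℝ) = 3 * N := by rw [hM]; push_cast; ring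
  have hlogM : 1 + Real.log M ≤ 3 * l := by
    rw [hM', Real.log_mul (by norm_num) (by linarith), ← hl]
    have : Real.log 3 ≤ 2 := by
      rw [Real.log_le_iff_le_exp (by norm_num)]
      linarith [Real.add_one_le_exp 2]
    linarith
  obtain ⟨δ, hδ⟩ : ∃ δ, δ = R / N := ⟨_, rfl⟩
  have hδ0 : 0 < δ := by rw [hδ]; positivity
  have hP0 : 0 < P := hP ▸ Nat.mul_pos hm (Nat.floor_pos.2 hR1)
  have hdisj : ((arcCentres P : Finset _) : Set (Σ _ : ℕ, ℕ)).PairwiseDisjoint (arc M δ) := by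
    intro z hz w hw hne
    rw [Function.onFun, disjoint_left]
    intro h h1 h2
    rw [arc, mem_filter] at h1 h2
    have h3 := (inv_mul_le_nearDist_centre hz hw hne).trans
      ((nearDist_sub_sub_le _ _ _).trans (add_le_add h1.2 h2.2))
    have hP' : 0 < (P : ℝ) := Nat.cast_pos.2 hP0
    rw [hδ, div_le_iff₀ (by positivity)] at h3
    have h4 : (R / N + R / N) * ((P : ℝ) * P) ≤ (R / N + R / N) * (l * R * (l * R)) :=
      mul_le_mul_of_nonneg_left (mul_le_mul hPlR hPlR hP'.le (by positivity)) (by positivity)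
    have h5 : (R / N + R / N) * (l * R * (l * R)) < 1 := by
      rw [show (R / N + R / N) * (l * R * (l * R)) = 2 * R * (l * R * (l * R)) / N by ring,
        div_lt_one (by linarith)]
      exact hR3
    linarith
  obtain ⟨F, hF⟩ : ∃ F : ℕ → ℂ, F = fun h : ℕ =>
      classTwist m a₁ N ((h : ℝ) / M) * classTwist m a₂ N ((h : ℝ) / M) *
        classTwist m a₃ N ((h : ℝ) / M) * eAdd (-(N * ((h : ℝ) / M))) := ⟨_, rfl⟩
  obtain ⟨minor, hminor⟩ : ∃ s, s = (range M) \ (arcCentres P).biUnion (arc M δ) := ⟨_, rfl⟩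
  obtain ⟨c, hc⟩ : ∃ c : (Σ _ : ℕ, ℕ) → ℂ, c = fun z =>
      classFactor m a₁ z.1 z.2 * classFactor m a₂ z.1 z.2 * classFactor m a₃ z.1 z.2 *
        eAdd (-(N * centre z)) := ⟨_, rfl⟩
  -- the total
  have htotal : ∑ h ∈ range M, F h = M * classTriple m a₁ a₂ a₃ N := by
    rw [classTriple, ← sum_triple_grid _ _ _ (show 3 * N ≤ M by omega) 0, hF]
    refine sum_congr rfl fun h _ => ?_
    simp only [add_zero, classTwist]
  have hdecomp : ∑ h ∈ range M, F h =
      ∑ h ∈ minor, F h + ∑ z ∈ arcCentres P, ∑ h ∈ arc M δ z, F h := by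
    rw [← sum_biUnion hdisj, hminor, sum_sdiff]
    exact biUnion_subset.2 fun z _ => filter_subset _ _
  -- the minor arcs
  have p1 : ‖∑ h ∈ minor, F h‖ ≤ C₁ * (N * l ^ 4 / l ^ b) * (M * (6 * N * l)) := by
    refine (norm_sum_le _ _).trans ((sum_le_sum (g := fun h : ℕ =>
      C₁ * (N * l ^ 4 / l ^ b) * (1 / 2 * ‖classTwist m a₂ N ((h : ℝ) / M)‖ ^ 2 +
        1 / 2 * ‖classTwist m a₃ N ((h : ℝ) / M)‖ ^ 2)) fun h hh => ?_).trans ?_)
    · rw [hminor, mem_sdiff, mem_biUnion] at hh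
      rw [hF, norm_mul, norm_eAdd, mul_one, norm_mul, norm_mul, mul_assoc]
      have h0 := hmin m a₁ N ((h : ℝ) / M) hm (hl ▸ hl1) (hl ▸ hR ▸ hRN) fun z hz => ?_
      · rw [← hl] at h0
        refine mul_le_mul h0 ?_ (mul_nonneg (norm_nonneg _) (norm_nonneg _)) (by positivity)
        linarith [two_mul_le_add_sq ‖classTwist m a₂ N ((h : ℝ) / M)‖
          ‖classTwist m a₃ N ((h : ℝ) / M)‖]
      · rw [← hl, ← hR, ← hP] at hz
        rw [← hl, ← hR, ← hδ]
        by_contra hle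
        exact hh.2 ⟨z, hz, mem_filter.2 ⟨hh.1, not_lt.1 hle⟩⟩
    · rw [← mul_sum, sum_add_distrib, ← mul_sum, ← mul_sum]
      refine mul_le_mul_of_nonneg_left ?_ (by positivity)
      have hsq : ∀ a, ∑ h ∈ minor, ‖classTwist m a N ((h : ℝ) / M)‖ ^ 2 ≤ M * (6 * N * l) :=
        fun a => (sum_le_sum_of_subset_of_nonneg (hminor ▸ sdiff_subset)
          fun i _ _ => sq_nonneg _).trans (hl ▸ sum_norm_sq_classTwist_le (by omega))
      linarith [hsq a₂, hsq a₃]
  -- one major arc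
  have p2 : ∀ z ∈ arcCentres P, ∀ h ∈ arc M δ z,
      ‖F h - c z * mainSummand N ((h : ℝ) / M + -centre z)‖ ≤
        36 * N ^ 2 * (27 * C₂ * (N / l ^ (8 * b + 3 + e)) * R) := by
    rintro ⟨q, r⟩ hz h hh
    rw [mem_arcCentres] at hz
    obtain ⟨⟨hq1, hqP⟩, -, hcop⟩ := hz
    simp only at hq1 hqP hcop
    rw [arc, mem_filter, nearDist] at hh
    obtain ⟨k, hk⟩ : ∃ k, k = round ((h : ℝ) / M - centre ⟨q, r⟩) := ⟨_, rfl⟩
    obtain ⟨β, hβ⟩ : ∃ β, β = (h : ℝ) / M - centre ⟨q, r⟩ - k := ⟨_, rfl⟩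
    rw [← hk, ← hβ] at hh
    have hper : ∀ a, classTwist m a N ((h : ℝ) / M) = classTwist m a N ((r : ℝ) / q + β) := by
      intro a
      simp only [classTwist, trigSum]
      refine sum_congr rfl fun n _ => congrArg _ ?_
      rw [← eAdd_add_intCast ((n : ℝ) * ((r : ℝ) / q + β)) ((n : ℤ) * k), hβ, centre]
      push_cast
      ring_nf
    have hqm : ((q * m : ℕ) : ℝ) ≤ l ^ (2 * b + 1) := by
      push_cast
      calc (q : ℝ) * m ≤ m * R * m :=
            mul_le_mul_of_nonneg_right ((Nat.cast_le.2 hqP).trans hPR) (Nat.cast_nonneg m)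
        _ = (m : ℝ) ^ 2 * R := by ring
        _ ≤ l * R := mul_le_mul_of_nonneg_right hlm (by linarith)
        _ = _ := by rw [hR, pow_succ']
    have hβR : 1 + 2 * π * |β| * N ≤ 9 * R := by
      have h1 : |β| * N ≤ R := by
        rw [← le_div_iff₀ (by linarith), ← hδ]
        exact hh.2
      have := mul_le_mul_of_nonneg_left h1 (show (0 : ℝ) ≤ 2 * π by positivity)
      have := mul_le_mul_of_nonneg_right Real.pi_le_four (show (0 : ℝ) ≤ R by linarith)
      linarith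
    have happ : ∀ a, ‖classTwist m a N ((h : ℝ) / M) - classFactor m a q r * geomSum N β‖ ≤
        9 * C₂ * (N / l ^ (8 * b + 3 + e)) * R := by
      intro a
      rw [hper a]
      refine (hl ▸ hmaj m a N q r β hm (by omega) (by omega) (hl ▸ hqm)).trans ?_
      calc C₂ * ((N : ℝ) / l ^ (8 * b + 3 + e)) * (1 + 2 * π * |β| * N)
          ≤ C₂ * ((N : ℝ) / l ^ (8 * b + 3 + e)) * (9 * R) :=
            mul_le_mul_of_nonneg_left hβR (by positivity)
        _ = _ := by ring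
    rw [hF, hc]
    simp only
    rw [mainSummand, ← sub_eq_add_neg, ← geomSum_sub_intCast N _ k, ← hβ]
    have e1 : eAdd (-((N : ℝ) * centre ⟨q, r⟩)) * eAdd (-(N * ((h : ℝ) / M - centre ⟨q, r⟩))) =
        eAdd (-(N * ((h : ℝ) / M))) := by
      rw [← eAdd_add]
      ring_nf
    rw [mul_mul_mul_comm _ (eAdd (-((N : ℝ) * centre ⟨q, r⟩))), e1, ← sub_mul, norm_mul, norm_eAdd,
      mul_one, show classFactor m a₁ q r * classFactor m a₂ q r * classFactor m a₃ q r *
        geomSum N β ^ 3 = classFactor m a₁ q r * geomSum N β *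
          (classFactor m a₂ q r * geomSum N β) * (classFactor m a₃ q r * geomSum N β) by ring]
    have hy : ∀ a, ‖classFactor m a q r * geomSum N β‖ ≤ 6 * N := fun a => by
      rw [norm_mul]
      refine (mul_le_of_le_one_left (norm_nonneg _) (norm_classFactor_le_one m a q r)).trans ?_
      refine (norm_sum_le _ _).trans ?_
      simp [norm_eAdd]
      linarith
    refine (norm_mul₃_sub_le (norm_classTwist_le _ _ _ _) (norm_classTwist_le _ _ _ _) (hy _)
      (hy _)).trans ?_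
    refine (mul_le_mul_of_nonneg_left (add_le_add (add_le_add (happ a₁) (happ a₂)) (happ a₃))
      (by positivity)).trans (le_of_eq ?_)
    ring
  have hpairs : ((arcCentres P).card : ℝ) ≤ l * R ^ 2 := by
    have h1 : (arcCentres P).card ≤ P * P := by
      rw [arcCentres, card_sigma]
      refine (sum_le_card_nsmul _ _ P fun q hq => ?_).trans (le_of_eq ?_)
      · rw [card_unitResidues]
        exact (Nat.totient_le q).trans (mem_Icc.1 hq).2
      · simp
    refine (Nat.cast_le.2 h1).trans ?_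
    push_cast
    calc (P : ℝ) * P ≤ m * R * (m * R) := mul_le_mul hPR hPR (Nat.cast_nonneg P) (by positivity)
      _ = (m : ℝ) ^ 2 * R ^ 2 := by ring
      _ ≤ _ := mul_le_mul_of_nonneg_right hlm (by positivity)
  have p3 : ‖∑ z ∈ arcCentres P, ∑ h ∈ arc M δ z,
      (F h - c z * mainSummand N ((h : ℝ) / M + -centre z))‖ ≤
        l * R ^ 2 * (41 * R * l) * (36 * N ^ 2 * (27 * C₂ * (N / l ^ (8 * b + 3 + e)) * R)) := by
    refine (norm_sum_le _ _).trans ((sum_le_card_nsmul _ _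
      (41 * R * l * (36 * N ^ 2 * (27 * C₂ * (N / l ^ (8 * b + 3 + e)) * R))) fun z hz => ?_).trans
      ?_)
    · refine (norm_sum_le _ _).trans ((sum_le_card_nsmul _ _ _ (p2 z hz)).trans ?_)
      rw [nsmul_eq_mul]
      refine mul_le_mul_of_nonneg_right ((card_arc_le hδ0 z).trans ?_) (by positivity)
      have h1 : 4 * (M : ℝ) * δ * (1 + Real.log M) ≤ 12 * R * (3 * l) := by
        refine le_trans (le_of_eq ?_) (mul_le_mul_of_nonneg_left hlogM (by positivity))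
        rw [hM', hδ]
        field_simp
        ring
      have h2 : 1 * 1 ≤ R * l := mul_le_mul hR1 hl1 zero_le_one (by linarith)
      linarith
    · rw [nsmul_eq_mul, mul_assoc (l * R ^ 2)]
      exact mul_le_mul_of_nonneg_right hpairs (by positivity)
  -- the tails of the main summand
  have hcsum : ∑ z ∈ arcCentres P, ‖c z‖ ≤ Z₀ := by
    rw [arcCentres, sum_sigma, hZ₀, ← tsum_mul_left, ← tsum_mul_left]
    refine le_trans (sum_le_sum (g := fun q : ℕ => (m : ℝ) ^ 3 * (4 * (q : ℝ) ^ (-(3 / 2) : ℝ)))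
      fun q hq => ?_) (Summable.sum_le_tsum _ (fun i _ => by positivity)
        (((Real.summable_nat_rpow.2 (by norm_num)).mul_left 4).mul_left _))
    rw [mem_Icc] at hq
    refine (sum_le_card_nsmul _ _ ((m : ℝ) ^ 3 / (q.totient : ℝ) ^ 3) fun r hr => ?_).trans ?_
    · rw [unitResidues, mem_filter] at hr
      rw [hc, norm_mul, norm_eAdd, mul_one, norm_mul, norm_mul, ← div_pow, pow_three']
      exact mul_le_mul (mul_le_mul (norm_classFactor_le hm hq.1 hr.2 h₁)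
        (norm_classFactor_le hm hq.1 hr.2 h₂) (norm_nonneg _) (by positivity))
        (norm_classFactor_le hm hq.1 hr.2 h₃) (norm_nonneg _) (by positivity)
    · rw [card_unitResidues, nsmul_eq_mul]
      refine le_trans (le_of_eq ?_) (mul_le_mul_of_nonneg_left (inv_totient_sq_le hq.1)
        (by positivity))
      have : (q.totient : ℝ) ≠ 0 := Nat.cast_ne_zero.2 (Nat.totient_pos.2 hq.1).ne'
      field_simp
  have p4 : ∀ z ∈ arcCentres P, ‖∑ h ∈ range M \ arc M δ z,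
      mainSummand N ((h : ℝ) / M + -centre z)‖ ≤ 7 * N ^ 3 * l / R ^ 2 := by
    intro z _
    obtain ⟨Z, hZ⟩ : ∃ Z, Z = 1 / (2 * δ) := ⟨_, rfl⟩
    have hZ0 : 0 < Z := by rw [hZ]; positivity
    refine (norm_sum_le _ _).trans ((sum_le_sum (g := fun h : ℕ =>
      Z ^ 2 * clip Z ((h : ℝ) / M - centre z)) fun h hh => ?_).trans ?_)
    · rw [mem_sdiff, arc, mem_filter, not_and, not_le] at hh
      have hd := hh.2 hh.1
      rw [← sub_eq_add_neg, mainSummand, norm_mul, norm_eAdd, mul_one, norm_pow]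
      have h1 := norm_geom_le ((h : ℝ) / M - centre z) 0 N
      have h2 : clip ((N - 0 : ℕ) : ℝ) ((h : ℝ) / M - centre z) ≤
          1 / (2 * nearDist ((h : ℝ) / M - centre z)) :=
        clip_le_inv (hδ0.trans hd) le_rfl
      have h3 : 1 / (2 * nearDist ((h : ℝ) / M - centre z)) ≤ Z :=
        hZ ▸ one_div_le_one_div_of_le (by positivity) (by linarith)
      have h4 : clip Z ((h : ℝ) / M - centre z) =
          1 / (2 * nearDist ((h : ℝ) / M - centre z)) := by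
        rw [clip, if_neg (by linarith), min_eq_right h3]
      rw [h4, pow_succ _ 2]
      have h5 : ‖geomSum N ((h : ℝ) / M - centre z)‖ ≤
          1 / (2 * nearDist ((h : ℝ) / M - centre z)) := h1.trans h2
      exact mul_le_mul (pow_le_pow_left₀ (norm_nonneg _) (h5.trans h3) 2) h5 (norm_nonneg _)
        (sq_nonneg _)
    · rw [← mul_sum]
      refine (mul_le_mul_of_nonneg_left ((sum_le_sum_of_subset_of_nonneg sdiff_subset
        fun i _ _ => clip_nonneg hZ0.le _).trans (sum_clip_grid_le (centre z) hZ0.le))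
        (sq_nonneg Z)).trans ?_
      have hZN : Z = N / (2 * R) := by
        rw [hZ, hδ]
        field_simp
      rw [hZN]
      calc ((N : ℝ) / (2 * R)) ^ 2 * (5 * (N / (2 * R)) + 2 * M * (1 + Real.log M))
          ≤ ((N : ℝ) / (2 * R)) ^ 2 * (5 * (N / 2) * l + 2 * (3 * N) * (3 * l)) := by
            refine mul_le_mul_of_nonneg_left (add_le_add ?_ ?_) (sq_nonneg _)
            · have h2 : (N : ℝ) / (2 * R) ≤ N / 2 :=
                div_le_div_of_nonneg_left (Nat.cast_nonneg N) two_pos (by linarith)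
              calc 5 * ((N : ℝ) / (2 * R)) ≤ 5 * (N / 2) * 1 := by linarith
                _ ≤ _ := mul_le_mul_of_nonneg_left hl1 (by positivity)
            · rw [← hM']
              exact mul_le_mul_of_nonneg_left hlogM (by positivity)
        _ = 41 / 8 * ((N : ℝ) ^ 3 * l / R ^ 2) := by field_simp; ring
        _ ≤ _ := by
            have : 0 ≤ (N : ℝ) ^ 3 * l / R ^ 2 := by positivity
            rw [show 7 * (N : ℝ) ^ 3 * l / R ^ 2 = 7 * ((N : ℝ) ^ 3 * l / R ^ 2) by ring]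
            linarith
  have p5 : ‖∑ z ∈ arcCentres P, c z *
      ∑ h ∈ range M \ arc M δ z, mainSummand N ((h : ℝ) / M + -centre z)‖ ≤
        Z₀ * (7 * N ^ 3 * l / R ^ 2) := by
    refine (norm_sum_le _ _).trans ((sum_le_sum fun z hz => ?_).trans
      ((sum_mul _ _ _).ge.trans (mul_le_mul_of_nonneg_right hcsum (by positivity))))
    rw [norm_mul]
    exact mul_le_mul_of_nonneg_left (p4 z hz) (norm_nonneg _)
  -- the singular series
  have hcval : ∑ z ∈ arcCentres P, c z = ∑ q ∈ Icc 1 P, classTerm m a₁ a₂ a₃ N q := by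
    rw [arcCentres, sum_sigma, hc]
    rfl
  have hident : ∑ h ∈ range M, F h -
      (M : ℂ) * tripleSum (fun _ => 1) N * ∑ z ∈ arcCentres P, c z =
      ∑ h ∈ minor, F h + ∑ z ∈ arcCentres P, ∑ h ∈ arc M δ z,
          (F h - c z * mainSummand N ((h : ℝ) / M + -centre z)) -
        ∑ z ∈ arcCentres P, c z *
          ∑ h ∈ range M \ arc M δ z, mainSummand N ((h : ℝ) / M + -centre z) := by
    have h1 : ∀ z ∈ arcCentres P, (M : ℂ) * tripleSum (fun _ => 1) N * c z =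
        ∑ h ∈ arc M δ z, c z * mainSummand N ((h : ℝ) / M + -centre z) +
          c z * ∑ h ∈ range M \ arc M δ z, mainSummand N ((h : ℝ) / M + -centre z) := by
      intro z _
      rw [← mul_sum, ← mul_add, add_comm (∑ h ∈ arc M δ z, _), sum_sdiff
        (show arc M δ z ⊆ range M from filter_subset _ _),
        sum_mainSummand_grid (show 3 * N ≤ M by omega)]
      ring
    rw [mul_sum, sum_congr rfl h1, sum_add_distrib, hdecomp]
    simp only [sum_sub_distrib]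
    ring
  obtain ⟨E, hE⟩ : ∃ E : ℝ, E = (N : ℝ) ^ 2 / l ^ e := ⟨_, rfl⟩
  rw [← hE]
  have hE0 : 0 ≤ E := by rw [hE]; positivity
  have hM0 : (0 : ℝ) < M := Nat.cast_pos.2 (NeZero.pos M)
  have q1 : C₁ * (N * l ^ 4 / l ^ b) * (M * (6 * N * l)) ≤ M * (6 * C₁ * E) := by
    rw [show C₁ * (N * l ^ 4 / l ^ b) * ((M : ℝ) * (6 * N * l)) =
      M * (6 * C₁ * ((N : ℝ) ^ 2 * l ^ 5 / l ^ b)) by ring, hE]
    refine mul_le_mul_of_nonneg_left (mul_le_mul_of_nonneg_left ?_ (by positivity)) hM0.le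
    rw [div_le_div_iff₀ (by positivity) (by positivity), mul_assoc, ← pow_add]
    exact mul_le_mul_of_nonneg_left (pow_le_pow_right₀ hl1 (by omega)) (by positivity)
  have q2 : l * R ^ 2 * (41 * R * l) * (36 * N ^ 2 * (27 * C₂ * (N / l ^ (8 * b + 3 + e)) * R)) ≤
      M * (15000 * C₂ * E) := by
    have h1 : R ^ 4 * l ^ 2 / l ^ (8 * b + 3 + e) ≤ 1 / l ^ e := by
      rw [hR, div_le_div_iff₀ (by positivity) (by positivity), ← pow_mul, ← pow_add, ← pow_add,
        one_mul]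
      exact pow_le_pow_right₀ hl1 (by omega)
    calc l * R ^ 2 * (41 * R * l) *
          (36 * (N : ℝ) ^ 2 * (27 * C₂ * (N / l ^ (8 * b + 3 + e)) * R))
        = 39852 * C₂ * (N : ℝ) ^ 3 * (R ^ 4 * l ^ 2 / l ^ (8 * b + 3 + e)) := by ring
      _ ≤ 45000 * C₂ * (N : ℝ) ^ 3 * (1 / l ^ e) :=
          mul_le_mul (by gcongr; norm_num) h1 (by positivity) (by positivity)
      _ = _ := by rw [hM', hE]; ring
  have q3 : Z₀ * (7 * N ^ 3 * l / R ^ 2) ≤ M * (20 * Z₀ * E) := by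
    have h1 : l / R ^ 2 ≤ 1 / l ^ e := by
      rw [hR, div_le_div_iff₀ (by positivity) (by positivity), ← pow_mul, ← pow_succ', one_mul]
      exact pow_le_pow_right₀ hl1 (by omega)
    calc Z₀ * (7 * (N : ℝ) ^ 3 * l / R ^ 2) = Z₀ * (7 * (N : ℝ) ^ 3) * (l / R ^ 2) := by ring
      _ ≤ Z₀ * (60 * (N : ℝ) ^ 3) * (1 / l ^ e) :=
          mul_le_mul (by gcongr; norm_num) h1 (by positivity) (by positivity)
      _ = _ := by rw [hM', hE]; ring
  obtain ⟨S, hS⟩ : ∃ S, S = ∑ q ∈ Icc 1 P, classTerm m a₁ a₂ a₃ N q := ⟨_, rfl⟩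
  have hmain : ‖classTriple m a₁ a₂ a₃ N - tripleSum (fun _ => 1) N * S‖ ≤
      (6 * C₁ + 15000 * C₂ + 20 * Z₀) * E := by
    refine le_of_mul_le_mul_left ?_ hM0
    rw [← Complex.norm_natCast M, ← norm_mul, mul_sub, ← mul_assoc, hS, ← hcval, ← htotal, hident,
      Complex.norm_natCast]
    refine (norm_sub_le _ _).trans ((add_le_add
      ((norm_add_le _ _).trans (add_le_add p1 p3)) p5).trans
      ((add_le_add (add_le_add q1 q2) q3).trans (le_of_eq ?_)))
    ring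
  obtain ⟨hst, hsb⟩ := hser N P hmod
  rw [← hS] at hst
  have hPe : ((P + 1 : ℕ) : ℝ) ^ (-(1 / 4) : ℝ) ≤ 1 / l ^ e := by
    have h1 : l ^ (4 * e) ≤ ((P + 1 : ℕ) : ℝ) :=
      le_trans ((pow_le_pow_right₀ hl1 (show 4 * e ≤ 2 * b by omega)).trans hR.ge) hRP
    refine (Real.rpow_le_rpow_of_nonpos (by positivity) h1 (by norm_num)).trans (le_of_eq ?_)
    rw [one_div (l ^ e), ← Real.rpow_natCast, ← Real.rpow_mul hl0.le, ← Real.rpow_natCast,
      ← Real.rpow_neg hl0.le]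
    push_cast
    ring_nf
  have hS2 : ‖S‖ ≤ 2 * Cs := by
    have h1 : ((P + 1 : ℕ) : ℝ) ^ (-(1 / 4) : ℝ) ≤ 1 :=
      Real.rpow_le_one_of_one_le_of_nonpos (by exact_mod_cast Nat.le_add_left 1 P) (by norm_num)
    have h2 := mul_le_mul_of_nonneg_left h1 hCs.le
    have h3 : ‖((classMain m N : ℝ) : ℂ)‖ ≤ Cs := by
      rw [Complex.norm_real, Real.norm_eq_abs]
      exact hsb
    have := norm_le_norm_add_norm_sub' S ((classMain m N : ℝ) : ℂ)
    linarith [hst.trans h2]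
  have hNl : (2 * N : ℝ) ≤ K' * E := by
    have hNe : l ^ e ≤ K' * √(N : ℝ) := hl ▸ hpow' N hN1
    rw [hE, mul_div_assoc', le_div_iff₀ (by positivity)]
    calc 2 * (N : ℝ) * l ^ e ≤ 2 * N * (K' * √(N : ℝ)) :=
          mul_le_mul_of_nonneg_left hNe (by positivity)
      _ ≤ _ := by
          have h2 : 2 * √(N : ℝ) ≤ N := by
            have : 2 ≤ √(N : ℝ) := by
              rw [Real.le_sqrt two_pos.le (Nat.cast_nonneg N)]
              have : (8 : ℝ) ≤ N := by exact_mod_cast hN8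
              linarith
            calc 2 * √(N : ℝ) ≤ √(N : ℝ) * √(N : ℝ) :=
                  mul_le_mul_of_nonneg_right this (Real.sqrt_nonneg _)
              _ = N := Real.mul_self_sqrt (Nat.cast_nonneg N)
          have := mul_le_mul_of_nonneg_left h2 (show 0 ≤ K' * (N : ℝ) by positivity)
          linarith
  have hJ : ‖(tripleSum (fun _ => 1) N - (((N : ℝ) ^ 2 / 2 : ℝ) : ℂ)) * S‖ ≤
      2 * Cs * K' * E := by
    rw [norm_mul]
    refine (mul_le_mul ((abs_tripleSum_one_sub_le hN0).trans hNl) hS2 (norm_nonneg _)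
      (by positivity)).trans (le_of_eq ?_)
    ring
  have hser' : ‖((((N : ℝ) ^ 2 / 2 : ℝ) : ℂ)) * (S - (classMain m N : ℂ))‖ ≤ Cs * E := by
    rw [norm_mul, Complex.norm_real, Real.norm_eq_abs, abs_of_nonneg (by positivity), hE]
    calc (N : ℝ) ^ 2 / 2 * ‖S - (classMain m N : ℂ)‖ ≤ (N : ℝ) ^ 2 * (Cs * (1 / l ^ e)) :=
          mul_le_mul (by linarith [sq_nonneg (N : ℝ)])
            (hst.trans (mul_le_mul_of_nonneg_left hPe hCs.le)) (norm_nonneg _) (by positivity)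
      _ = _ := by ring
  rw [show classTriple m a₁ a₂ a₃ N - ((classMain m N * ((N : ℝ) ^ 2 / 2) : ℝ) : ℂ) =
      (classTriple m a₁ a₂ a₃ N - tripleSum (fun _ => 1) N * S) +
        (tripleSum (fun _ => 1) N - (((N : ℝ) ^ 2 / 2 : ℝ) : ℂ)) * S +
        ((((N : ℝ) ^ 2 / 2 : ℝ) : ℂ)) * (S - (classMain m N : ℂ)) by push_cast; ring]
  refine (norm_add₃_le).trans ((add_le_add (add_le_add hmain hJ) hser').trans (le_of_eq ?_))
  ring

end FA.ThreePrimesClasses
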