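import Fermat.Agent.ThreePrimes.Circle
import Fermat.Agent.WaringGoldbach.Major

/-!
# The coefficient of a major arc for the primes of one class

`(∑ e (r x / q)) / φ (q m)` over the units `x` modulo `q m` with `x ≡ a (mod m)` is
`μ d / (φ m φ d) e (r b / g)` for `q = g d`, `g ∣ m`, `(d, m) = 1`, `d b ≡ a (mod m)`, and `0` when
`q` has no such decomposition.
-/

set_option autoImplicit false

noncomputable section

namespace FA.ThreePrimesClasses

open Finset Complex
open FA.ThreePrimes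

/-- The coefficient of the arc at `r / q` for the class of `a` modulo `m`. -/
def classFactor (m a q r : ℕ) : ℂ :=
  (∑ x ∈ (unitResidues (q * m)).filter (fun x => x % m = a % m), eAdd ((r : ℝ) * x / q)) /
    ((q * m).totient : ℂ)

/-- The class modulo `m` by its characters. -/
theorem sum_class_indicator {m q : ℕ} (hm : 0 < m) (hq : 0 < q) (a r n : ℕ) :
    ∑ h ∈ range m, eAdd (-((h : ℝ) * a / m)) *
        eAdd ((((r * m + h * q : ℕ) : ℤ) : ℝ) * n / (q * m : ℕ)) =
      if n % m = a % m then (m : ℂ) * eAdd ((r : ℝ) * n / q) else 0 := by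
  have e : ∀ h : ℕ, eAdd (-((h : ℝ) * a / m)) *
      eAdd ((((r * m + h * q : ℕ) : ℤ) : ℝ) * n / (q * m : ℕ)) =
      eAdd ((r : ℝ) * n / q) * eAdd ((((n : ℤ) - a : ℤ) : ℝ) * h / m) := by
    intro h
    rw [← eAdd_add, ← eAdd_add]
    congr 1
    have hm' : (m : ℝ) ≠ 0 := Nat.cast_ne_zero.2 hm.ne'
    have hq' : (q : ℝ) ≠ 0 := Nat.cast_ne_zero.2 hq.ne'
    push_cast
    field_simp
    ring
  simp only [e]
  rw [← mul_sum, sum_eAdd_grid hm]
  have hiff : (m : ℤ) ∣ (n : ℤ) - a ↔ n % m = a % m := by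
    rw [← Nat.modEq_iff_dvd]
    exact ⟨fun h => h.symm, fun h => h.symm⟩
  simp only [hiff]
  split_ifs <;> ring

theorem norm_classFactor_le_one (m a q r : ℕ) : ‖classFactor m a q r‖ ≤ 1 := by
  rw [classFactor, norm_div, Complex.norm_natCast]
  refine div_le_one_of_le₀ ((norm_sum_le _ _).trans ?_) (Nat.cast_nonneg _)
  simp only [norm_eAdd, sum_const, nsmul_one]
  rw [← card_unitResidues]
  exact Nat.cast_le.2 (card_filter_le _ _)

/-- The average of the shifted coefficients. -/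
theorem classFactor_eq_average {m q : ℕ} (hm : 0 < m) (hq : 0 < q) (a r : ℕ) :
    (m : ℂ) * classFactor m a q r = ∑ h ∈ range m, eAdd (-((h : ℝ) * a / m)) *
      WaringGoldbach.unitFactor 1 (q * m) ((r * m + h * q : ℕ) : ℤ) := by
  simp only [WaringGoldbach.unitFactor, WaringGoldbach.unitSum, pow_one, ← mul_div_assoc, mul_sum,
    ← sum_div]
  rw [sum_comm, sum_congr rfl fun x _ => sum_class_indicator hm hq a r x, classFactor, sum_filter,
    ← mul_div_assoc, mul_sum]
  simp only [mul_ite, mul_zero]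

theorem totient_mul_of_dvd_right {g m : ℕ} (hg : 0 < g) (h : g ∣ m) :
    (g * m).totient = g * m.totient := by
  have e := Nat.totient_gcd_mul_totient_mul g m
  rw [Nat.gcd_eq_left h, mul_assoc, mul_comm m.totient g] at e
  exact Nat.eq_of_mul_eq_mul_left (Nat.totient_pos.2 hg) e

/-- The multiples of `e` in one class. -/
theorem sum_class_multiples {m q e b a r : ℕ} (hm : 0 < m) (he : 0 < e) (heq : e ∣ q)
    (hq : 0 < q) (hcop : e.Coprime m) (hb : b < m) (hba : (e * b) % m = a % m) :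
    ∑ x ∈ (range (q * m)).filter (fun x => e ∣ x ∧ x % m = a % m), eAdd ((r : ℝ) * x / q) =
      eAdd ((r : ℝ) * b / (q / e : ℕ)) *
        if ((q / e : ℕ) : ℤ) ∣ (r : ℤ) * m then ((q / e : ℕ) : ℂ) else 0 := by
  obtain ⟨t, rfl⟩ := heq
  rw [Nat.mul_div_cancel_left t he]
  have ht : 0 < t := Nat.pos_of_mul_pos_left hq
  rw [← sum_eAdd_grid ht, mul_sum]
  refine sum_nbij' (fun x => x / e / m) (fun j => e * (b + j * m)) (fun x hx => ?_) (fun j hj => ?_)
    (fun x hx => ?_) (fun j _ => ?_) (fun x hx => ?_)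
  · rw [mem_filter, mem_range] at hx
    rw [mem_range, Nat.div_lt_iff_lt_mul hm, Nat.div_lt_iff_lt_mul he, mul_comm (t * m),
      ← mul_assoc]
    exact hx.1
  · rw [mem_range] at hj
    rw [mem_filter, mem_range, mul_assoc e t m]
    refine ⟨Nat.mul_lt_mul_of_pos_left ?_ he, dvd_mul_right _ _, ?_⟩
    · calc b + j * m < m + j * m := by omega
        _ = (j + 1) * m := by ring
        _ ≤ t * m := Nat.mul_le_mul_right m hj
    · rw [mul_add, ← mul_assoc, Nat.add_mul_mod_self_right, hba]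
  · rw [mem_filter] at hx
    obtain ⟨y, rfl⟩ := hx.2.1
    have hy : y % m = b := by
      have h1 : (e * y) % m = (e * b) % m := hx.2.2.trans hba.symm
      have h2 := Nat.ModEq.cancel_left_of_coprime (c := e) (hcop.symm) h1
      exact Eq.trans h2 (Nat.mod_eq_of_lt hb)
    simp only [Nat.mul_div_cancel_left y he]
    congr 1
    rw [← hy, mul_comm]
    exact Nat.mod_add_div y m
  · simp only [Nat.mul_div_cancel_left _ he]
    rw [Nat.add_mul_div_right _ _ hm, Nat.div_eq_of_lt hb, zero_add]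
  · rw [mem_filter] at hx
    obtain ⟨y, rfl⟩ := hx.2.1
    have hy : y % m = b := by
      have h1 : (e * y) % m = (e * b) % m := hx.2.2.trans hba.symm
      have h2 := Nat.ModEq.cancel_left_of_coprime (c := e) (hcop.symm) h1
      exact Eq.trans h2 (Nat.mod_eq_of_lt hb)
    simp only [Nat.mul_div_cancel_left y he]
    rw [← eAdd_add]
    congr 1
    have hdiv : ((y : ℕ) : ℝ) = b + ((y / m : ℕ) : ℝ) * m := by
      rw [← hy]
      exact_mod_cast (Nat.mod_add_div y m).symm.trans (by rw [mul_comm])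
    obtain ⟨j, hj⟩ : ∃ j, j = y / m := ⟨_, rfl⟩
    rw [← hj] at hdiv ⊢
    have he' : (e : ℝ) ≠ 0 := Nat.cast_ne_zero.2 he.ne'
    push_cast
    rw [hdiv]
    field_simp

theorem sum_class_units {m q a r : ℕ} (hq : 0 < q) (ha : a.Coprime m) :
    ∑ x ∈ (unitResidues (q * m)).filter (fun x => x % m = a % m), eAdd ((r : ℝ) * x / q) =
      ∑ e ∈ q.divisors, (moebiusR e : ℂ) *
        ∑ x ∈ (range (q * m)).filter (fun x => e ∣ x ∧ x % m = a % m), eAdd ((r : ℝ) * x / q) := by
  rw [unitResidues, filter_filter, sum_filter]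
  simp only [sum_filter, mul_sum, mul_ite, mul_zero]
  rw [sum_comm (s := q.divisors)]
  refine sum_congr rfl fun x _ => ?_
  by_cases hx : x % m = a % m
  swap
  · rw [if_neg fun h => hx h.2]
    exact (sum_eq_zero fun e _ => if_neg fun h => hx h.2).symm
  simp only [hx, and_true]
  rw [← sum_filter, ← sum_mul, ← Complex.ofReal_sum]
  have e1 : q.divisors.filter (· ∣ x) = (q.gcd x).divisors := by
    ext d
    simp only [mem_filter, Nat.mem_divisors, Nat.dvd_gcd_iff]
    have : q.gcd x ≠ 0 := (Nat.gcd_pos_of_pos_left x hq).ne'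
    exact ⟨fun h => ⟨⟨h.1.1, h.2⟩, this⟩, fun h => ⟨⟨h.1.1, hq.ne'⟩, h.1.2⟩⟩
  rw [e1, sum_moebius_divisors]
  have hmx : m.Coprime x := by
    rw [Nat.Coprime, Nat.gcd_rec, hx, ← Nat.gcd_rec]
    exact ha.symm
  have hiff : (q * m).Coprime x ↔ q.gcd x = 1 := by
    rw [Nat.coprime_mul_iff_left]
    exact ⟨fun h => h.1, fun h => ⟨h, hmx⟩⟩
  by_cases hc : q.gcd x = 1
  · rw [if_pos hc, if_pos (hiff.2 hc), Complex.ofReal_one, one_mul]
  · rw [if_neg hc, if_neg fun h => hc (hiff.1 h), Complex.ofReal_zero, zero_mul]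

theorem classFactor_term {m q a r e : ℕ} (hm : 0 < m) (hq : 0 < q) (hr : q.Coprime r)
    (ha : a.Coprime m) (he : e ∣ q)
    (hne : ∑ x ∈ (range (q * m)).filter (fun x => e ∣ x ∧ x % m = a % m),
      eAdd ((r : ℝ) * x / q) ≠ 0) : e.Coprime m ∧ q / e ∣ m := by
  have he0 : 0 < e := Nat.pos_of_dvd_of_pos he hq
  have hcop : e.Coprime m := by
    by_contra hc
    obtain ⟨p, hp, hpe, hpm⟩ := Nat.Prime.not_coprime_iff_dvd.1 hc
    refine hne (sum_eq_zero fun x hx => ?_)
    exfalso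
    rw [mem_filter] at hx
    have hpa : p ∣ a := by
      have h1 : p ∣ x % m := (Nat.dvd_mod_iff hpm).2 (hpe.trans hx.2.1)
      rw [hx.2.2, Nat.dvd_mod_iff hpm] at h1
      exact h1
    exact hp.one_lt.ne' (Nat.eq_one_of_dvd_coprimes ha hpa hpm)
  refine ⟨hcop, ?_⟩
  obtain ⟨b, hb⟩ := Nat.exists_mul_mod_eq_of_coprime (a % m) hcop hm.ne'
  rw [sum_class_multiples (b := b) hm he0 he hq hcop hb.1 (by rw [hb.2, Nat.mod_mod])] at hne
  by_contra hd
  refine hne (mul_eq_zero_of_right _ (if_neg fun h => hd ?_))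
  have h2 : q / e ∣ r * m := Int.natCast_dvd_natCast.1 (by exact_mod_cast h)
  exact (hr.coprime_dvd_left (Nat.div_dvd_of_dvd he)).dvd_of_dvd_mul_left h2

/-- **No decomposition: `0`.** -/
theorem classFactor_eq_zero {m q a r : ℕ} (hm : 0 < m) (hq : 0 < q) (hr : q.Coprime r)
    (ha : a.Coprime m) (h : ¬ (q / q.gcd m).Coprime m) : classFactor m a q r = 0 := by
  rw [classFactor, sum_class_units hq ha, sum_eq_zero fun e he => ?_, zero_div]
  rw [Nat.mem_divisors] at he
  refine mul_eq_zero_of_right _ (not_not.1 fun hne => h ?_)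
  obtain ⟨hc, hd⟩ := classFactor_term hm hq hr ha he.1 hne
  have h1 : q.gcd m = q / e := by
    conv_lhs => rw [← Nat.div_mul_cancel he.1]
    rw [hc.gcd_mul_right_cancel, Nat.gcd_eq_left hd]
  rw [h1, Nat.div_div_self he.1 hq.ne']
  exact hc

/-- **The value.** -/
theorem classFactor_eq {m g d a r b : ℕ} (hm : 0 < m) (hd : 0 < d) (hgm : g ∣ m)
    (hdm : d.Coprime m) (hr : (g * d).Coprime r) (ha : a.Coprime m)
    (hb : (d * b) % m = a % m) :
    classFactor m a (g * d) r =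
      ((moebiusR d / ((m.totient : ℝ) * d.totient) : ℝ) : ℂ) * eAdd ((r : ℝ) * b / g) := by
  have hg : 0 < g := Nat.pos_of_dvd_of_pos hgm hm
  have hq : 0 < g * d := Nat.mul_pos hg hd
  have hdiv : g * d / d = g := Nat.mul_div_cancel g hd
  rw [classFactor, sum_class_units hq ha, sum_eq_single d]
  · rw [sum_class_multiples (b := b % m) hm hd (dvd_mul_left d g) hq hdm (Nat.mod_lt _ hm)
      (by rw [Nat.mul_mod_mod, hb]), hdiv,
      if_pos (dvd_mul_of_dvd_right (Int.natCast_dvd_natCast.2 hgm) _)]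
    have e2 : eAdd ((r : ℝ) * ((b % m : ℕ) : ℝ) / g) = eAdd ((r : ℝ) * b / g) := by
      have h1 := eAdd_mod hg (r : ℤ) (b % m)
      have h2 := eAdd_mod hg (r : ℤ) b
      rw [Nat.mod_mod_of_dvd _ hgm, ← h2] at h1
      simpa using h1
    rw [e2, show g * d * m = d * (g * m) by ring,
      Nat.totient_mul ((hdm.coprime_dvd_right hgm).mul_right hdm), totient_mul_of_dvd_right hg hgm]
    have h3 : (g : ℂ) ≠ 0 := Nat.cast_ne_zero.2 hg.ne'
    have h4 : (d.totient : ℂ) ≠ 0 := Nat.cast_ne_zero.2 (Nat.totient_pos.2 hd).ne'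
    have h5 : (m.totient : ℂ) ≠ 0 := Nat.cast_ne_zero.2 (Nat.totient_pos.2 hm).ne'
    push_cast
    field_simp
  · intro e he hne
    rw [Nat.mem_divisors] at he
    refine mul_eq_zero_of_right _ (not_not.1 fun h => hne ?_)
    obtain ⟨hc, hde⟩ := classFactor_term hm hq hr ha he.1 h
    have h1 : (g * d).gcd m = g * d / e := by
      conv_lhs => rw [← Nat.div_mul_cancel he.1]
      rw [hc.gcd_mul_right_cancel, Nat.gcd_eq_left hde]
    rw [hdm.gcd_mul_right_cancel, Nat.gcd_eq_left hgm] at h1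
    have h2 := Nat.div_mul_cancel he.1
    rw [← h1] at h2
    exact Nat.eq_of_mul_eq_mul_left hg h2
  · intro h
    exact absurd (Nat.mem_divisors.2 ⟨dvd_mul_left d g, hq.ne'⟩) h

/-- A decomposition `q = g d` and the representatives of `a / d`. -/
theorem exists_class_inverse {m d : ℕ} (hm : 0 < m) (hdm : d.Coprime m) (a : ℕ) :
    ∃ b, (d * b) % m = a % m := by
  obtain ⟨b, -, hb⟩ := Nat.exists_mul_mod_eq_of_coprime (a % m) hdm hm.ne'
  exact ⟨b, by rw [hb, Nat.mod_mod]⟩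

theorem norm_classFactor_le {m q a r : ℕ} (hm : 0 < m) (hq : 0 < q) (hr : q.Coprime r)
    (ha : a.Coprime m) : ‖classFactor m a q r‖ ≤ (m : ℝ) / q.totient := by
  by_cases h : (q / q.gcd m).Coprime m
  swap
  · rw [classFactor_eq_zero hm hq hr ha h, norm_zero]
    positivity
  obtain ⟨d, hd⟩ : ∃ d, d = q / q.gcd m := ⟨_, rfl⟩
  obtain ⟨g, hg⟩ : ∃ g, g = q.gcd m := ⟨_, rfl⟩
  have hgm : g ∣ m := hg ▸ Nat.gcd_dvd_right q m
  have hg0 : 0 < g := Nat.pos_of_dvd_of_pos hgm hm
  have hqe : g * d = q := by rw [hd, hg, Nat.mul_div_cancel' (Nat.gcd_dvd_left q m)]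
  have hd0 : 0 < d := Nat.pos_of_mul_pos_left (hqe.symm ▸ hq)
  rw [← hd] at h
  obtain ⟨b, hb⟩ := exists_class_inverse hm h a
  rw [← hqe, classFactor_eq hm hd0 hgm h (hqe.symm ▸ hr) ha hb, norm_mul, norm_eAdd, mul_one,
    Complex.norm_real, Real.norm_eq_abs, abs_div, abs_mul, Nat.abs_cast, Nat.abs_cast]
  have hdφ : (0 : ℝ) < d.totient := Nat.cast_pos.2 (Nat.totient_pos.2 hd0)
  have hmφ : (1 : ℝ) ≤ m.totient := Nat.one_le_cast.2 (Nat.totient_pos.2 hm)
  refine (div_le_div₀ zero_le_one (abs_moebiusR_le d) hdφ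
    (le_mul_of_one_le_left hdφ.le hmφ)).trans ?_
  rw [Nat.totient_mul (h.coprime_dvd_right hgm).symm]
  have hgφ : (0 : ℝ) < g.totient := Nat.cast_pos.2 (Nat.totient_pos.2 hg0)
  push_cast
  rw [div_le_div_iff₀ hdφ (by positivity), one_mul]
  refine mul_le_mul_of_nonneg_right ?_ hdφ.le
  exact_mod_cast (Nat.totient_le g).trans (Nat.le_of_dvd hm hgm)

end FA.ThreePrimesClasses
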